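import Mathlib

/-!
# The mean square of the theta series along the rotated line

With `g v = e^(v/2) · 8 h² / (4 + h² v²)`, the integral over `[0, V]` of
`g v ‖∑_{1 ≤ n ≤ N} exp (-π n² (s + i k) e^v)‖²` is `O (h / √s + h² (log (1/s))²)`: the diagonal
by comparison with the Gaussian integral, the rest by one integration by parts.
-/

set_option autoImplicit false

noncomputable section

namespace FA.HardyLittlewoodZeros

open Finset Complex MeasureTheory
open scoped Real ComplexConjugate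

/-- A weight dominating `min (h, 2 / |v|) ^ 2`. -/
def shortWeight (h v : ℝ) : ℝ := 8 * h ^ 2 / (4 + h ^ 2 * v ^ 2)

theorem shortWeight_nonneg (h v : ℝ) : 0 ≤ shortWeight h v := by
  unfold shortWeight
  positivity

theorem shortWeight_le (h v : ℝ) : shortWeight h v ≤ 2 * h ^ 2 := by
  rw [shortWeight, div_le_iff₀ (by positivity)]
  nlinarith [mul_nonneg (mul_nonneg (sq_nonneg h) (sq_nonneg h)) (sq_nonneg v)]

theorem continuous_shortWeight (h : ℝ) : Continuous (shortWeight h) := by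
  unfold shortWeight
  exact continuous_const.div (by fun_prop) fun v => by positivity

theorem sq_le_shortWeight {h K v : ℝ} (hK : 0 ≤ K) (h1 : K ≤ h) (h2 : |v| * K ≤ 2) :
    K ^ 2 ≤ shortWeight h v := by
  rw [shortWeight, le_div_iff₀ (by positivity)]
  have e1 := pow_le_pow_left₀ hK h1 2
  have e2 := pow_le_pow_left₀ (mul_nonneg (abs_nonneg v) hK) h2 2
  rw [mul_pow, sq_abs] at e2
  nlinarith [mul_le_mul_of_nonneg_left e2 (sq_nonneg h)]

/-- The integral of the weight. -/
theorem integral_shortWeight_le {h : ℝ} (hh : 0 < h) (V : ℝ) :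
    ∫ v in (0 : ℝ)..V, shortWeight h v ≤ 2 * π * h := by
  have hd : ∀ v ∈ Set.uIcc (0 : ℝ) V,
      HasDerivAt (fun w => 4 * h * Real.arctan (h / 2 * w)) (shortWeight h v) v := fun v _ => by
    refine ((((hasDerivAt_id' v).const_mul (h / 2)).arctan).const_mul (4 * h)).congr_deriv ?_
    rw [shortWeight]
    field_simp
    ring
  rw [intervalIntegral.integral_eq_sub_of_hasDerivAt hd
    ((continuous_shortWeight h).intervalIntegrable _ _), mul_zero, Real.arctan_zero, mul_zero,
    sub_zero]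
  have := mul_le_mul_of_nonneg_left (Real.arctan_lt_pi_div_two (h / 2 * V)).le
    (show 0 ≤ 4 * h by positivity)
  linarith

/-- The amplitude after removing the derivative of the phase. -/
def ampl (h a v : ℝ) : ℝ := Real.exp (-(v / 2)) * shortWeight h v * Real.exp (-(a * Real.exp v))

/-- The derivative of `ampl`. -/
def amplDeriv (h a v : ℝ) : ℝ :=
  ampl h a v * (-(1 / 2) - a * Real.exp v - 2 * h ^ 2 * v / (4 + h ^ 2 * v ^ 2))

theorem hasDerivAt_ampl (h a v : ℝ) : HasDerivAt (ampl h a) (amplDeriv h a v) v := by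
  have hW : HasDerivAt (shortWeight h)
      (-(shortWeight h v * (2 * h ^ 2 * v / (4 + h ^ 2 * v ^ 2)))) v := by
    unfold shortWeight
    refine ((hasDerivAt_const v (8 * h ^ 2)).fun_div
      (((hasDerivAt_pow 2 v).const_mul (h ^ 2)).const_add 4) (by positivity)).congr_deriv ?_
    field_simp
    push_cast
    ring
  refine (((((hasDerivAt_id' v).div_const 2).fun_neg).exp.fun_mul hW).fun_mul
    ((((Real.hasDerivAt_exp v).const_mul a).fun_neg).exp)).congr_deriv ?_
  simp only [amplDeriv, ampl]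
  ring

theorem continuous_amplDeriv (h a : ℝ) : Continuous (amplDeriv h a) := by
  have h1 : Continuous fun v : ℝ => 2 * h ^ 2 * v / (4 + h ^ 2 * v ^ 2) :=
    Continuous.div (by fun_prop) (by fun_prop) fun v => by positivity
  unfold amplDeriv ampl
  exact ((Continuous.mul (by fun_prop) (continuous_shortWeight h)).mul (by fun_prop)).mul
    ((Continuous.sub (by fun_prop) (by fun_prop)).sub h1)

/-- **The oscillatory integral.** -/
theorem norm_osc_le {h a l V : ℝ} (ha : 0 ≤ a) (hl : l ≠ 0) (hV : 0 ≤ V) :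
    ‖∫ v in (0 : ℝ)..V, ((Real.exp (v / 2) * shortWeight h v * Real.exp (-(a * Real.exp v)) : ℝ)
        : ℂ) * cexp (-(I * l * Real.exp v))‖ ≤ 4 * h ^ 2 * Real.exp (-a) / |l| := by
  obtain ⟨F, hF⟩ : ∃ F : ℝ → ℂ, F = fun v => cexp (-(I * l * Real.exp v)) / (-(I * l)) :=
    ⟨_, rfl⟩
  have hIl : -(I * (l : ℂ)) ≠ 0 := neg_ne_zero.2 (mul_ne_zero I_ne_zero (ofReal_ne_zero.2 hl))
  have hFd : ∀ v, HasDerivAt F ((Real.exp v : ℂ) * cexp (-(I * l * Real.exp v))) v := fun v => by
    rw [hF]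
    refine ((((Real.hasDerivAt_exp v).ofReal_comp.const_mul (I * (l : ℂ))).fun_neg.cexp).div_const
      _).congr_deriv ?_
    have hlC : (l : ℂ) ≠ 0 := ofReal_ne_zero.2 hl
    field_simp
  have hFn : ∀ v, ‖F v‖ = 1 / |l| := fun v => by
    rw [hF]
    simp only [norm_div, norm_neg, norm_mul, Complex.norm_I, Complex.norm_real, Real.norm_eq_abs,
      one_mul]
    rw [Complex.norm_exp]
    simp
  have hFc : Continuous F := by rw [hF]; fun_prop
  have hgd := fun v => hasDerivAt_ampl h a v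
  have he : ∀ v : ℝ, ((Real.exp (v / 2) * shortWeight h v * Real.exp (-(a * Real.exp v)) : ℝ) : ℂ)
      * cexp (-(I * l * Real.exp v)) =
        (ampl h a v : ℂ) * ((Real.exp v : ℂ) * cexp (-(I * l * Real.exp v))) := fun v => by
    rw [← mul_assoc, ← Complex.ofReal_mul, ampl]
    congr 2
    rw [show Real.exp (v / 2) = Real.exp (-(v / 2)) * Real.exp v by rw [← Real.exp_add]; ring_nf]
    ring
  simp only [he]
  rw [intervalIntegral.integral_mul_deriv_eq_deriv_mul
    (fun v _ => (hgd v).ofReal_comp) (fun v _ => hFd v)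
    ((Complex.continuous_ofReal.comp (continuous_amplDeriv h a)).intervalIntegrable _ _)
    ((by fun_prop : Continuous fun v : ℝ =>
      (Real.exp v : ℂ) * cexp (-(I * l * Real.exp v))).intervalIntegrable _ _)]
  have hg0 : ∀ v, 0 ≤ ampl h a v := fun v => by
    have := shortWeight_nonneg h v
    unfold ampl
    positivity
  have hneg : ∀ v, 0 ≤ v → amplDeriv h a v ≤ 0 := fun v hv => by
    refine mul_nonpos_of_nonneg_of_nonpos (hg0 v) ?_
    have : 0 ≤ 2 * h ^ 2 * v / (4 + h ^ 2 * v ^ 2) := by positivity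
    nlinarith [Real.exp_pos v]
  have hint : ‖∫ v in (0 : ℝ)..V, (amplDeriv h a v : ℂ) * F v‖ ≤
      (ampl h a 0 - ampl h a V) * (1 / |l|) := by
    refine (intervalIntegral.norm_integral_le_integral_norm hV).trans ?_
    rw [← neg_sub (ampl h a V), ← intervalIntegral.integral_eq_sub_of_hasDerivAt (fun v _ => hgd v)
      ((continuous_amplDeriv h a).intervalIntegrable _ _), ← intervalIntegral.integral_neg,
      ← intervalIntegral.integral_mul_const]
    refine intervalIntegral.integral_mono_on hV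
      (((Complex.continuous_ofReal.comp (continuous_amplDeriv h a)).mul hFc).norm.intervalIntegrable
        _ _) (((continuous_amplDeriv h a).neg.mul continuous_const).intervalIntegrable _ _)
      fun v hv => le_of_eq ?_
    rw [norm_mul, Complex.norm_real, Real.norm_eq_abs, abs_of_nonpos (hneg v hv.1), hFn]
  have hval : ampl h a 0 ≤ 2 * h ^ 2 * Real.exp (-a) := by
    simp only [ampl, zero_div, neg_zero, Real.exp_zero, mul_one, one_mul]
    exact mul_le_mul_of_nonneg_right (shortWeight_le h 0) (Real.exp_pos _).le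
  refine (norm_sub_le _ _).trans ((add_le_add
    (show _ ≤ (ampl h a V + ampl h a 0) * (1 / |l|) from (norm_sub_le _ _).trans (le_of_eq ?_))
    hint).trans ?_)
  · simp only [norm_mul, Complex.norm_real, Real.norm_eq_abs, hFn, abs_of_nonneg (hg0 _)]
    ring
  · rw [← add_mul, mul_one_div]
    exact div_le_div_of_nonneg_right (by linarith) (abs_nonneg l)

/-- A sum of a decreasing function against the integral. -/
theorem sum_gauss_le {b : ℝ} (hb : 0 < b) (N : ℕ) :
    ∑ n ∈ Icc 1 N, Real.exp (-(b * (n : ℝ) ^ 2)) ≤ √(π / b) / 2 := by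
  have e : ∑ n ∈ Icc 1 N, Real.exp (-(b * (n : ℝ) ^ 2)) =
      ∑ i ∈ range N, Real.exp (-(b * ((i + 1 : ℕ) : ℝ) ^ 2)) := by
    induction N with
    | zero => simp
    | succ m ih => rw [sum_Icc_succ_top (by omega), sum_range_succ, ih]
  have hanti : AntitoneOn (fun x : ℝ => Real.exp (-(b * x ^ 2))) (Set.Icc (0 : ℝ) (0 + N)) :=
    fun x hx y _ hxy => Real.exp_le_exp.2 (neg_le_neg (mul_le_mul_of_nonneg_left
      (pow_le_pow_left₀ hx.1 hxy 2) hb.le))
  have h := hanti.sum_le_integral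
  simp only [zero_add] at h
  rw [e]
  refine h.trans ?_
  rw [← integral_gaussian_Ioi b, intervalIntegral.integral_of_le (Nat.cast_nonneg N)]
  simp only [neg_mul]
  have hi : Integrable fun x : ℝ => Real.exp (-(b * x ^ 2)) := by
    simpa [neg_mul] using integrable_exp_neg_mul_sq hb
  exact setIntegral_mono_set hi.integrableOn (Filter.Eventually.of_forall fun x =>
    (Real.exp_pos _).le) (LE.le.eventuallyLE Set.Ioc_subset_Ioi_self)

/-- A logarithmic sum with Gaussian cut. -/
theorem sum_gauss_div_le {b : ℝ} (hb : 0 < b) (hb1 : b ≤ 1) (N : ℕ) :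
    ∑ n ∈ Icc 1 N, Real.exp (-(b * (n : ℝ) ^ 2)) / n ≤ 3 + Real.log (1 / b) := by
  obtain ⟨K, hK⟩ : ∃ K, K = ⌈1 / √b⌉₊ := ⟨_, rfl⟩
  have hsb : 0 < √b := Real.sqrt_pos.2 hb
  have hK1 : 1 / √b ≤ K := hK ▸ Nat.le_ceil _
  have h1b : (1 : ℝ) ≤ 1 / √b := by
    rw [le_div_iff₀ hsb, one_mul, Real.sqrt_le_one]
    exact hb1
  have hK0 : (0 : ℝ) < K := by linarith
  have hK2 : (K : ℝ) ≤ 2 * (1 / √b) := by
    have := (Nat.ceil_lt_add_one (show (0 : ℝ) ≤ 1 / √b by positivity)).le
    rw [← hK] at this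
    linarith
  have hlogK : Real.log K ≤ 1 + Real.log (1 / b) := by
    have h := Real.log_le_log hK0 hK2
    rw [Real.log_mul two_ne_zero (by positivity), one_div, Real.log_inv, Real.log_sqrt hb.le] at h
    rw [one_div b, Real.log_inv]
    have : Real.log b ≤ 0 := Real.log_nonpos hb.le hb1
    linarith [Real.log_two_lt_d9]
  rw [← sum_filter_add_sum_filter_not (Icc 1 N) (fun n => n ≤ K)]
  have hlow : ∑ n ∈ (Icc 1 N).filter (fun n => n ≤ K), Real.exp (-(b * (n : ℝ) ^ 2)) / n ≤
      1 + Real.log K := by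
    refine le_trans (sum_le_sum (g := fun n : ℕ => (n : ℝ)⁻¹) fun n hn => ?_) ?_
    · rw [div_eq_mul_inv]
      refine mul_le_of_le_one_left (by positivity) (Real.exp_le_one_iff.2 ?_)
      rw [neg_nonpos]
      positivity
    · refine le_trans (sum_le_sum_of_subset_of_nonneg (t := Icc 1 K) (fun n hn => ?_)
        fun n _ _ => by positivity) ?_
      · rw [mem_filter, mem_Icc] at hn
        exact mem_Icc.2 ⟨hn.1.1, hn.2⟩
      · have := harmonic_le_one_add_log K
        rw [harmonic_eq_sum_Icc] at this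
        push_cast at this
        exact this
  have hhigh : ∑ n ∈ (Icc 1 N).filter (fun n => ¬n ≤ K), Real.exp (-(b * (n : ℝ) ^ 2)) / n ≤
      1 := by
    refine (sum_le_sum (g := fun n : ℕ => Real.exp (-(b * (n : ℝ) ^ 2)) * √b) fun n hn => ?_).trans
      ((sum_le_sum_of_subset_of_nonneg (filter_subset _ _) fun n _ _ => by positivity).trans ?_)
    · rw [mem_filter, not_le] at hn
      rw [div_eq_mul_inv]
      refine mul_le_mul_of_nonneg_left ?_ (Real.exp_pos _).le
      rw [inv_le_comm₀ (Nat.cast_pos.2 (by omega)) hsb, inv_eq_one_div]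
      exact hK1.trans (Nat.cast_le.2 hn.2.le)
    · rw [← sum_mul]
      refine (mul_le_mul_of_nonneg_right (sum_gauss_le hb N) hsb.le).trans ?_
      rw [Real.sqrt_div Real.pi_pos.le, div_mul_eq_mul_div, div_mul_cancel₀ _ hsb.ne',
        div_le_one two_pos, Real.sqrt_le_iff]
      constructor <;> linarith [Real.pi_lt_d2]
  linarith

/-- The off diagonal pairs. -/
theorem sum_offdiag_le {b : ℝ} (hb : 0 < b) (hb1 : b ≤ 1) (N : ℕ) :
    ∑ m ∈ Icc 1 N, ∑ n ∈ Icc 1 N, (if m = n then 0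
      else Real.exp (-(b * ((m : ℝ) ^ 2 + (n : ℝ) ^ 2))) / |(m : ℝ) ^ 2 - (n : ℝ) ^ 2|) ≤
        2 * (3 + Real.log (1 / b)) ^ 2 := by
  obtain ⟨f, hf⟩ : ∃ f : ℕ → ℝ, f = fun n : ℕ => Real.exp (-(b * (n : ℝ) ^ 2)) / n := ⟨_, rfl⟩
  have hf0 : ∀ n, 0 ≤ f n := fun n => by rw [hf]; positivity
  obtain ⟨S, hS⟩ : ∃ S, S = ∑ n ∈ Icc 1 N, f n := ⟨_, rfl⟩
  have hS0 : 0 ≤ S := hS ▸ sum_nonneg fun n _ => hf0 n
  have hpt : ∀ m ∈ Icc 1 N, ∀ n ∈ Icc 1 N, (if m = n then 0
      else Real.exp (-(b * ((m : ℝ) ^ 2 + (n : ℝ) ^ 2))) / |(m : ℝ) ^ 2 - (n : ℝ) ^ 2|) ≤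
      (if n < m then f n * f (m - n) else 0) + (if m < n then f m * f (n - m) else 0) := by
    have one : ∀ m n : ℕ, 1 ≤ n → n < m →
        Real.exp (-(b * ((m : ℝ) ^ 2 + (n : ℝ) ^ 2))) / |(m : ℝ) ^ 2 - (n : ℝ) ^ 2| ≤
          f n * f (m - n) := by
      intro m n hn hnm
      have hn0 : (1 : ℝ) ≤ n := by exact_mod_cast hn
      have hk : ((m - n : ℕ) : ℝ) = (m : ℝ) - n := by rw [Nat.cast_sub hnm.le]
      have hk0 : (0 : ℝ) < (m : ℝ) - n := sub_pos.2 (Nat.cast_lt.2 hnm)
      rw [hf]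
      simp only
      rw [hk, div_mul_div_comm, ← Real.exp_add, abs_of_pos (by nlinarith)]
      refine div_le_div₀ (Real.exp_pos _).le (Real.exp_le_exp.2 ?_) (by positivity) ?_
      · nlinarith [mul_nonneg hb.le (mul_nonneg (show (0 : ℝ) ≤ n by linarith) hk0.le),
          mul_nonneg hb.le (sq_nonneg (n : ℝ))]
      · nlinarith
    intro m hm n hn
    rw [mem_Icc] at hm hn
    rcases lt_trichotomy n m with h | h | h
    · rw [if_neg h.ne', if_pos h, if_neg h.not_gt, add_zero]
      exact one m n hn.1 h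
    · simp [h]
    · rw [if_neg h.ne, if_neg h.not_gt, if_pos h, zero_add, add_comm ((m : ℝ) ^ 2), abs_sub_comm]
      exact one n m hm.1 h
  have hhalf : ∀ n ∈ Icc 1 N, ∑ m ∈ Icc 1 N, (if n < m then f n * f (m - n) else 0) ≤ f n * S := by
    intro n _
    rw [← sum_filter, ← mul_sum]
    refine mul_le_mul_of_nonneg_left ?_ (hf0 n)
    rw [hS, ← sum_image (f := f) (g := fun m => m - n) fun a ha b hb h => by
      simp only [mem_coe, mem_filter, mem_Icc] at ha hb h
      omega]
    refine sum_le_sum_of_subset_of_nonneg (fun k hk => ?_) fun k _ _ => hf0 k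
    obtain ⟨m, hm, rfl⟩ := mem_image.1 hk
    rw [mem_filter, mem_Icc] at hm
    rw [mem_Icc]
    omega
  refine (sum_le_sum fun m hm => sum_le_sum fun n hn => hpt m hm n hn).trans ?_
  simp only [sum_add_distrib]
  have hb2 : S ≤ 3 + Real.log (1 / b) := hS ▸ hf ▸ sum_gauss_div_le hb hb1 N
  have h1 : ∑ m ∈ Icc 1 N, ∑ n ∈ Icc 1 N, (if n < m then f n * f (m - n) else 0) ≤ S * S := by
    rw [sum_comm]
    exact (sum_le_sum hhalf).trans (le_of_eq (by rw [← sum_mul, ← hS]))
  have h2 : ∑ m ∈ Icc 1 N, ∑ n ∈ Icc 1 N, (if m < n then f m * f (n - m) else 0) ≤ S * S :=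
    (sum_le_sum hhalf).trans (le_of_eq (by rw [← sum_mul, ← hS]))
  nlinarith [mul_le_mul hb2 hb2 hS0 (hS0.trans hb2)]

/-- The partial sums of the rotated theta series. -/
def rotSum (s k : ℝ) (N : ℕ) (v : ℝ) : ℂ :=
  ∑ n ∈ Icc 1 N, cexp (-((π * (n : ℝ) ^ 2 * Real.exp v : ℝ) * ((s : ℂ) + k * I)))

/-- **The weighted mean square of the partial sums.** -/
theorem integral_rotSum_le {h s k V : ℝ} (hh : 0 < h) (hs : 0 < s) (hs1 : π * s ≤ 1)
    (hk : 1 / 2 ≤ k) (hV : 0 ≤ V) (N : ℕ) :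
    ∫ v in (0 : ℝ)..V, Real.exp (v / 2) * shortWeight h v * ‖rotSum s k N v‖ ^ 2 ≤
      4 * h / √s + 8 * h ^ 2 * (3 + Real.log (1 / (π * s))) ^ 2 := by
  obtain ⟨a, ha⟩ : ∃ a : ℕ → ℕ → ℝ, a = fun m n : ℕ => π * s * ((m : ℝ) ^ 2 + (n : ℝ) ^ 2) :=
    ⟨_, rfl⟩
  obtain ⟨l, hl⟩ : ∃ l : ℕ → ℕ → ℝ, l = fun m n : ℕ => π * k * ((m : ℝ) ^ 2 - (n : ℝ) ^ 2) :=
    ⟨_, rfl⟩
  obtain ⟨T, hT⟩ : ∃ T : ℕ → ℕ → ℝ → ℂ, T = fun m n v =>
      ((Real.exp (v / 2) * shortWeight h v * Real.exp (-(a m n * Real.exp v)) : ℝ) : ℂ) *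
        cexp (-(I * l m n * Real.exp v)) := ⟨_, rfl⟩
  have hTc : ∀ m n, Continuous (T m n) := fun m n => by
    rw [hT]
    exact (Complex.continuous_ofReal.comp ((Continuous.mul (by fun_prop)
      (continuous_shortWeight h)).mul (by fun_prop))).mul (by fun_prop)
  have e : ∀ v : ℝ, ((Real.exp (v / 2) * shortWeight h v * ‖rotSum s k N v‖ ^ 2 : ℝ) : ℂ) =
      ∑ m ∈ Icc 1 N, ∑ n ∈ Icc 1 N, T m n v := fun v => by
    rw [Complex.ofReal_mul, Complex.ofReal_pow, ← Complex.mul_conj', rotSum, map_sum, sum_mul_sum,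
      mul_sum]
    refine sum_congr rfl fun m _ => ?_
    rw [mul_sum]
    refine sum_congr rfl fun n _ => ?_
    rw [hT, ha, hl, ← Complex.exp_conj, ← Complex.exp_add]
    simp only
    rw [Complex.ofReal_mul _ (Real.exp (-_)), Complex.ofReal_exp (-_)]
    conv_rhs => rw [mul_assoc, ← Complex.exp_add]
    congr 2
    simp only [map_neg, map_mul, map_add, Complex.conj_ofReal, Complex.conj_I]
    push_cast
    ring
  have hI : ((∫ v in (0 : ℝ)..V, Real.exp (v / 2) * shortWeight h v * ‖rotSum s k N v‖ ^ 2 : ℝ)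
      : ℂ) = ∑ m ∈ Icc 1 N, ∑ n ∈ Icc 1 N, ∫ v in (0 : ℝ)..V, T m n v := by
    rw [← intervalIntegral.integral_ofReal]
    simp only [e]
    rw [intervalIntegral.integral_finsetSum fun m _ =>
      (continuous_finsetSum _ fun n _ => hTc m n).intervalIntegrable _ _]
    exact sum_congr rfl fun m _ => intervalIntegral.integral_finsetSum fun n _ =>
      (hTc m n).intervalIntegrable _ _
  have hdiag : ‖∑ m ∈ Icc 1 N, ∫ v in (0 : ℝ)..V, T m m v‖ ≤ 4 * h / √s := by
    rw [← intervalIntegral.integral_finsetSum fun m _ => (hTc m m).intervalIntegrable _ _]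
    have hpt : ∀ v, ‖∑ m ∈ Icc 1 N, T m m v‖ ≤ shortWeight h v * (1 / (2 * √(2 * s))) := by
      intro v
      refine (norm_sum_le _ _).trans ?_
      have hw := shortWeight_nonneg h v
      have e1 : ∀ m, ‖T m m v‖ = Real.exp (v / 2) * shortWeight h v *
          Real.exp (-(2 * π * s * Real.exp v * (m : ℝ) ^ 2)) := fun m => by
        rw [hT, hl, ha]
        simp only [sub_self, mul_zero, Complex.ofReal_zero, zero_mul, neg_zero, Complex.exp_zero,
          mul_one, Complex.norm_real]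
        rw [Real.norm_of_nonneg (by positivity)]
        ring_nf
      simp only [e1]
      rw [← mul_sum]
      refine (mul_le_mul_of_nonneg_left (sum_gauss_le (by positivity) N) (by positivity)).trans
        (le_of_eq ?_)
      rw [show π / (2 * π * s * Real.exp v) = 1 / (2 * s * Real.exp v) by field_simp,
        Real.sqrt_div zero_le_one, Real.sqrt_one, Real.sqrt_mul (by positivity) (Real.exp v),
        Real.exp_half]
      field_simp
    refine (intervalIntegral.norm_integral_le_integral_norm hV).trans ?_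
    refine (intervalIntegral.integral_mono_on
      (g := fun v => shortWeight h v * (1 / (2 * √(2 * s)))) hV
      ((continuous_finsetSum _ fun m _ => hTc m m).norm.intervalIntegrable _ _)
      (((continuous_shortWeight h).mul continuous_const).intervalIntegrable _ _)
      fun v _ => hpt v).trans ?_
    rw [intervalIntegral.integral_mul_const]
    refine (mul_le_mul_of_nonneg_right (integral_shortWeight_le hh V) (by positivity)).trans ?_
    rw [mul_one_div, div_le_div_iff₀ (by positivity) (Real.sqrt_pos.2 hs),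
      Real.sqrt_mul zero_le_two]
    have h2 : 1 ≤ √(2 : ℝ) := Real.one_le_sqrt.2 one_le_two
    nlinarith [Real.pi_lt_four, mul_pos hh (Real.sqrt_pos.2 hs),
      mul_le_mul_of_nonneg_left h2 (mul_pos hh (Real.sqrt_pos.2 hs)).le]
  have hoff : ‖∑ m ∈ Icc 1 N, ∑ n ∈ Icc 1 N,
      (if m = n then 0 else ∫ v in (0 : ℝ)..V, T m n v)‖ ≤
        8 * h ^ 2 * (3 + Real.log (1 / (π * s))) ^ 2 := by
    have hb0 : 0 < π * s := by positivity
    refine (norm_sum_le _ _).trans ((sum_le_sum fun m _ => norm_sum_le _ _).trans ?_)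
    refine le_trans ?_ (le_of_eq_of_le (b := 4 * h ^ 2 * (2 * (3 + Real.log (1 / (π * s))) ^ 2))
      rfl (le_of_eq (by ring)))
    refine le_trans ?_ (mul_le_mul_of_nonneg_left (sum_offdiag_le hb0 hs1 N) (by positivity))
    rw [mul_sum]
    refine sum_le_sum fun m _ => ?_
    rw [mul_sum]
    refine sum_le_sum fun n _ => ?_
    rcases eq_or_ne m n with rfl | hmn
    · simp
    rw [if_neg hmn, if_neg hmn, hT]
    have hsq : (m : ℝ) ^ 2 - (n : ℝ) ^ 2 ≠ 0 := fun h0 => hmn (by
      exact_mod_cast (pow_left_inj₀ (Nat.cast_nonneg m) (Nat.cast_nonneg n) two_ne_zero).1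
        (sub_eq_zero.1 h0))
    have hlne : l m n ≠ 0 := by
      rw [hl]
      exact mul_ne_zero (mul_ne_zero Real.pi_ne_zero (by linarith)) hsq
    refine (norm_osc_le (by rw [ha]; positivity) hlne hV).trans ?_
    rw [ha, hl, ← mul_div_assoc]
    simp only
    refine div_le_div_of_nonneg_left (by positivity) (abs_pos.2 hsq) ?_
    rw [abs_mul]
    refine le_mul_of_one_le_left (abs_nonneg _) ?_
    rw [abs_of_nonneg (by positivity : (0 : ℝ) ≤ π * k)]
    nlinarith [Real.pi_gt_three]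
  have hsplit : ∑ m ∈ Icc 1 N, ∑ n ∈ Icc 1 N, (∫ v in (0 : ℝ)..V, T m n v) =
      (∑ m ∈ Icc 1 N, ∫ v in (0 : ℝ)..V, T m m v) + ∑ m ∈ Icc 1 N, ∑ n ∈ Icc 1 N,
        (if m = n then 0 else ∫ v in (0 : ℝ)..V, T m n v) := by
    rw [← sum_add_distrib]
    refine sum_congr rfl fun m hm => ?_
    rw [← add_sum_erase _ (fun n => ∫ v in (0 : ℝ)..V, T m n v) hm,
      ← add_sum_erase _ (fun n => if m = n then 0 else ∫ v in (0 : ℝ)..V, T m n v) hm, if_pos rfl,
      zero_add]
    congr 1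
    exact sum_congr rfl fun n hn => by rw [if_neg (ne_of_mem_erase hn).symm]
  refine (le_abs_self _).trans ?_
  rw [← Real.norm_eq_abs, ← Complex.norm_real, hI, hsplit]
  exact (norm_add_le _ _).trans (add_le_add hdiag hoff)

end FA.HardyLittlewoodZeros
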