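import Fermat.Agent.HardyZeros.Transform
import Fermat.Agent.Halasz.Plancherel
import Fermat.Agent.HardyLittlewoodZeros.Theta

/-!
# The mean square of short integrals of the completed zeta function

`tiltH T y = Λ (1/2 + 2iy) e^((π/2 - 1/T) y)` and `shortInt T h u` is its integral over
`[u, u + h]`. Plancherel gives `∫ ‖shortInt T h u‖² du = O (h √T + h² (log T)²)`.
-/

set_option autoImplicit false

noncomputable section

namespace FA.HardyLittlewoodZeros

open MeasureTheory Complex Filter Topology FourierTransform FA.HardyZeros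
open scoped Real ComplexConjugate

/-- The exponent `π/2 - 1/T`. -/
def tilt (T : ℝ) : ℝ := π / 2 - 1 / T

/-- The tilted completed zeta function. -/
def tiltH (T y : ℝ) : ℂ := ((hardyH y * Real.exp (tilt T * y) : ℝ) : ℂ)

theorem tilt_mem {T : ℝ} (hT : 2 ≤ T) : (tilt T : ℂ) ∈ strip := by
  have h1 : 0 < 1 / T := by positivity
  have h2 : 1 / T ≤ 1 / 2 := one_div_le_one_div_of_le two_pos hT
  simp only [strip, Set.mem_preimage, Complex.ofReal_re, Set.mem_Ioo, tilt]
  constructor <;> linarith [Real.pi_gt_three]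

theorem momentFn_eq_tiltH (T y : ℝ) : momentFn 0 (tilt T : ℂ) y = tiltH T y := by
  simp [momentFn, tiltH]

theorem continuous_tiltH (T : ℝ) : Continuous (tiltH T) :=
  Complex.continuous_ofReal.comp (continuous_hardyH.mul (by fun_prop))

theorem integrable_tiltH {T : ℝ} (hT : 2 ≤ T) : Integrable (tiltH T) :=
  (integrable_momentFn 0 (tilt_mem hT)).congr (Eventually.of_forall fun y => momentFn_eq_tiltH T y)

/-- The short integrals. -/
def shortInt (T h u : ℝ) : ℂ := ∫ v in (0 : ℝ)..h, tiltH T (u + v)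

theorem continuous_shortInt (T h : ℝ) : Continuous (shortInt T h) :=
  intervalIntegral.continuous_parametric_intervalIntegral_of_continuous' (f := fun u v =>
    tiltH T (u + v)) ((continuous_tiltH T).comp (continuous_fst.add continuous_snd)) 0 h

theorem norm_shortInt_le {T h : ℝ} (hT : 2 ≤ T) (hh : 0 ≤ h) (u : ℝ) :
    ‖shortInt T h u‖ ≤ ∫ y, ‖tiltH T y‖ := by
  refine (intervalIntegral.norm_integral_le_integral_norm hh).trans ?_
  rw [intervalIntegral.integral_comp_add_left (fun y => ‖tiltH T y‖),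
    intervalIntegral.integral_of_le (by linarith)]
  exact setIntegral_le_integral (integrable_tiltH hT).norm
    (Eventually.of_forall fun y => norm_nonneg _)

theorem integrable_prod_tiltH {T : ℝ} (hT : 2 ≤ T) (h : ℝ) :
    Integrable (fun p : ℝ × ℝ => tiltH T (p.1 + p.2))
      (volume.prod (volume.restrict (Set.Ioc 0 h))) := by
  refine (integrable_prod_iff'
    ((continuous_tiltH T).comp (continuous_fst.add continuous_snd)).aestronglyMeasurable).2
      ⟨Eventually.of_forall fun v => (integrable_tiltH hT).comp_add_right v, ?_⟩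
  refine (integrable_const (∫ u, ‖tiltH T u‖)).congr (Eventually.of_forall fun v => ?_)
  exact (integral_add_right_eq_self (fun u => ‖tiltH T u‖) v).symm

theorem integrable_shortInt {T h : ℝ} (hT : 2 ≤ T) (hh : 0 ≤ h) : Integrable (shortInt T h) := by
  have := (integrable_prod_tiltH hT h).integral_prod_left
  unfold shortInt
  simpa only [intervalIntegral.integral_of_le hh] using this

theorem memLp_shortInt {T h : ℝ} (hT : 2 ≤ T) (hh : 0 ≤ h) : MemLp (shortInt T h) 2 := by
  refine (memLp_two_iff_integrable_sq_norm (continuous_shortInt T h).aestronglyMeasurable).2 ?_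
  refine ((integrable_shortInt hT hh).norm.const_mul (∫ y, ‖tiltH T y‖)).mono'
    ((continuous_shortInt T h).norm.pow 2).aestronglyMeasurable (Eventually.of_forall fun u => ?_)
  rw [Real.norm_of_nonneg (sq_nonneg _), sq]
  exact mul_le_mul_of_nonneg_right (norm_shortInt_le hT hh u) (norm_nonneg _)

/-- The transform of the window. -/
def windowKernel (h ξ : ℝ) : ℂ := ∫ v in (0 : ℝ)..h, cexp (((2 * π * ξ * v : ℝ) : ℂ) * I)

theorem fourier_tiltH (T ξ : ℝ) :
    𝓕 (tiltH T) ξ = hardyJ 0 ((tilt T : ℂ) - ((2 * π * ξ : ℝ) : ℂ) * I) := by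
  rw [Real.fourier_real_eq_integral_exp_smul, hardyJ]
  refine integral_congr_ae (Eventually.of_forall fun y => ?_)
  simp only [smul_eq_mul, tiltH, momentFn, pow_zero, one_mul, Complex.ofReal_mul,
    Complex.ofReal_exp]
  rw [mul_left_comm, ← Complex.exp_add]
  congr 2
  push_cast
  ring

theorem fourier_shortInt {T h : ℝ} (hT : 2 ≤ T) (hh : 0 ≤ h) (ξ : ℝ) :
    𝓕 (shortInt T h) ξ = windowKernel h ξ * 𝓕 (tiltH T) ξ := by
  rw [Real.fourier_real_eq_integral_exp_smul, Real.fourier_real_eq_integral_exp_smul]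
  simp only [smul_eq_mul]
  unfold shortInt windowKernel
  simp only [intervalIntegral.integral_of_le hh]
  have hint : Integrable
      (fun p : ℝ × ℝ => cexp (((-2 * π * p.1 * ξ : ℝ) : ℂ) * I) * tiltH T (p.1 + p.2))
      (volume.prod (volume.restrict (Set.Ioc 0 h))) := by
    refine (integrable_prod_tiltH hT h).norm.mono' ((Continuous.mul (by fun_prop)
      ((continuous_tiltH T).comp (continuous_fst.add continuous_snd))).aestronglyMeasurable)
      (Eventually.of_forall fun p => le_of_eq ?_)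
    rw [norm_mul, Complex.norm_exp_ofReal_mul_I, one_mul]
  conv_lhs => simp only [← integral_const_mul]
  rw [integral_integral_swap hint, ← integral_mul_const]
  refine integral_congr_ae (Eventually.of_forall fun v => ?_)
  simp only
  rw [← integral_const_mul]
  conv_rhs => rw [← integral_add_right_eq_self _ v]
  refine integral_congr_ae (Eventually.of_forall fun u => ?_)
  simp only
  rw [← mul_assoc (cexp (((2 * π * ξ * v : ℝ) : ℂ) * I)), ← Complex.exp_add]
  congr 2
  push_cast
  ring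

theorem norm_windowKernel_sq_le {h : ℝ} (hh : 0 ≤ h) (ξ : ℝ) :
    ‖windowKernel h ξ‖ ^ 2 ≤ shortWeight h (2 * π * ξ) := by
  refine sq_le_shortWeight (norm_nonneg _) ?_ ?_
  · refine (intervalIntegral.norm_integral_le_of_norm_le_const (C := 1) fun v _ => ?_).trans ?_
    · rw [Complex.norm_exp_ofReal_mul_I]
    · rw [one_mul, sub_zero, abs_of_nonneg hh]
  · rcases eq_or_ne ξ 0 with rfl | hξ
    · simp
    obtain ⟨c, hc⟩ : ∃ c : ℂ, c = ((2 * π * ξ : ℝ) : ℂ) * I := ⟨_, rfl⟩
    have hc0 : c ≠ 0 := hc ▸ mul_ne_zero (ofReal_ne_zero.2 (by positivity)) I_ne_zero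
    have hn : ‖c‖ = |2 * π * ξ| := by rw [hc]; simp
    have e : windowKernel h ξ = (cexp (c * h) - cexp (c * (0 : ℝ))) / c := by
      rw [windowKernel, ← integral_exp_mul_complex hc0]
      refine intervalIntegral.integral_congr fun v _ => ?_
      rw [hc]
      push_cast
      ring_nf
    rw [e, norm_div, hn, mul_div_cancel₀ _ (by positivity)]
    refine (norm_sub_le _ _).trans (le_of_eq ?_)
    rw [hc, Complex.norm_exp, Complex.norm_exp]
    simp
    norm_num

theorem conj_fourier_tiltH (T ξ : ℝ) : conj (𝓕 (tiltH T) ξ) = 𝓕 (tiltH T) (-ξ) := by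
  rw [Real.fourier_real_eq_integral_exp_smul, Real.fourier_real_eq_integral_exp_smul,
    ← integral_conj]
  refine integral_congr_ae (Eventually.of_forall fun y => ?_)
  simp only [smul_eq_mul, tiltH, map_mul, ← Complex.exp_conj, Complex.conj_ofReal,
    Complex.conj_I]
  push_cast
  ring_nf

/-- `i e^(iα) e^v`. -/
def rotPoint (T v : ℝ) : ℂ := I * (cexp ((tilt T : ℂ) * I) * (Real.exp v : ℂ))

/-- The transform on the right half line. -/
theorem norm_fourier_tiltH_sq_le {T ξ : ℝ} (hT : 2 ≤ T) (hξ : 0 ≤ ξ) :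
    ‖𝓕 (tiltH T) ξ‖ ^ 2 ≤ 2 * π ^ 2 *
      (Real.exp (2 * π * ξ / 2) * ‖jacobiTheta (rotPoint T (2 * π * ξ)) - 1‖ ^ 2 + 1) := by
  obtain ⟨v, hv⟩ : ∃ v, v = 2 * π * ξ := ⟨_, rfl⟩
  have hv0 : 0 ≤ v := hv ▸ by positivity
  obtain ⟨z, hz⟩ : ∃ z : ℂ, z = (tilt T : ℂ) - (v : ℂ) * I := ⟨_, rfl⟩
  have hzs : z ∈ strip := by
    have h := tilt_mem hT
    rw [hz]
    simpa [strip] using h
  have he : I * z = (v : ℂ) + (tilt T : ℂ) * I := by
    rw [hz]
    linear_combination (-(v : ℂ)) * I_sq
  rw [fourier_tiltH, ← hv, ← hz]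
  have h := thetaRot_eq hzs
  rw [thetaRot, thetaSum, he, pow_zero, pow_zero, one_mul, one_mul, neg_mul, he] at h
  have hπ : (π : ℂ) ≠ 0 := ofReal_ne_zero.2 Real.pi_ne_zero
  have e : hardyJ 0 z = π * (cexp (((v : ℂ) + (tilt T : ℂ) * I) / 4) *
      (jacobiTheta (rotPoint T v) - 1) - cexp (-((v : ℂ) + (tilt T : ℂ) * I) / 4)) := by
    have e1 : I * cexp ((v : ℂ) + (tilt T : ℂ) * I) = rotPoint T v := by
      rw [rotPoint, Complex.exp_add, Complex.ofReal_exp]
      ring
    rw [e1] at h
    have h' : hardyJ 0 z / π = cexp (((v : ℂ) + (tilt T : ℂ) * I) / 4) *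
        (jacobiTheta (rotPoint T v) - 1) - cexp (-((v : ℂ) + (tilt T : ℂ) * I) / 4) := by
      linear_combination -h
    rw [← h', mul_div_cancel₀ _ hπ]
  rw [e, norm_mul, Complex.norm_real, Real.norm_of_nonneg Real.pi_pos.le, mul_pow, mul_assoc 2,
    mul_left_comm 2]
  refine mul_le_mul_of_nonneg_left ?_ (sq_nonneg π)
  refine (pow_le_pow_left₀ (norm_nonneg _) (norm_sub_le _ _) 2).trans ?_
  rw [norm_mul, Complex.norm_exp, Complex.norm_exp]
  have r1 : (((v : ℂ) + (tilt T : ℂ) * I) / 4).re = v / 4 := by simp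
  have r2 : (-((v : ℂ) + (tilt T : ℂ) * I) / 4).re = -v / 4 := by simp
  rw [r1, r2]
  obtain ⟨X, hX⟩ : ∃ X, X = Real.exp (v / 4) * ‖jacobiTheta (rotPoint T v) - 1‖ := ⟨_, rfl⟩
  have hX2 : X ^ 2 = Real.exp (v / 2) * ‖jacobiTheta (rotPoint T v) - 1‖ ^ 2 := by
    rw [hX, mul_pow, ← Real.exp_nat_mul]
    push_cast
    ring_nf
  rw [← hX, ← hX2]
  have hY : Real.exp (-v / 4) ≤ 1 := Real.exp_le_one_iff.2 (by linarith)
  nlinarith [sq_nonneg (X - Real.exp (-v / 4)), mul_le_mul hY hY (Real.exp_pos _).le zero_le_one]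

theorem cos_tilt_bounds {T : ℝ} (hT : 4 ≤ T) :
    1 / (2 * T) ≤ Real.cos (tilt T) ∧ π * Real.cos (tilt T) ≤ 1 ∧
      1 / 2 ≤ Real.sin (tilt T) := by
  have hT0 : 0 < T := by linarith
  rw [tilt, Real.cos_pi_div_two_sub, Real.sin_pi_div_two_sub]
  have h0 : (0 : ℝ) < 1 / T := by positivity
  have h1 : 1 / T ≤ 1 / 4 := one_div_le_one_div_of_le (by norm_num) hT
  have hs := Real.sin_le h0.le
  refine ⟨?_, ?_, ?_⟩
  · refine le_trans ?_ (Real.mul_le_sin h0.le (by linarith [Real.pi_gt_three]))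
    rw [one_div (2 * T), mul_inv, one_div T, ← one_div (2 : ℝ)]
    refine mul_le_mul_of_nonneg_right ?_ (by positivity)
    rw [div_le_div_iff₀ two_pos Real.pi_pos]
    linarith [Real.pi_lt_four]
  · nlinarith [Real.pi_lt_four, Real.pi_pos]
  · have := Real.one_sub_sq_div_two_le_cos (x := 1 / T)
    nlinarith

/-- **The weighted mean square of the theta series.** -/
theorem integral_theta_le {T h V : ℝ} (hT : 4 ≤ T) (hh : 0 < h) (hV : 0 ≤ V) :
    IntervalIntegrable (fun v => Real.exp (v / 2) * shortWeight h v *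
        ‖jacobiTheta (rotPoint T v) - 1‖ ^ 2) volume 0 V ∧
      ∫ v in (0 : ℝ)..V, Real.exp (v / 2) * shortWeight h v *
        ‖jacobiTheta (rotPoint T v) - 1‖ ^ 2 ≤
          4 * (8 * h * √T + 8 * h ^ 2 * (3 + Real.log T) ^ 2) := by
  obtain ⟨hs2, hs1, hk⟩ := cos_tilt_bounds hT
  obtain ⟨s, hs⟩ : ∃ s, s = Real.cos (tilt T) := ⟨_, rfl⟩
  obtain ⟨k, hkd⟩ : ∃ k, k = Real.sin (tilt T) := ⟨_, rfl⟩
  rw [← hs] at hs1 hs2
  rw [← hkd] at hk
  have hT0 : 0 < T := by linarith
  have hs0 : 0 < s := lt_of_lt_of_le (by positivity) hs2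
  have hrot : ∀ v, rotPoint T v = I * (((s : ℂ) + k * I) * (Real.exp v : ℂ)) := fun v => by
    rw [rotPoint, Complex.exp_mul_I, ← Complex.ofReal_cos, ← Complex.ofReal_sin, hs, hkd]
  have him : ∀ v, (rotPoint T v).im = s * Real.exp v := fun v => by
    rw [hrot, Complex.I_mul_im, Complex.re_mul_ofReal]
    simp
  have himp : ∀ v, 0 < (rotPoint T v).im := fun v => by rw [him]; positivity
  have hcont : Continuous fun v => Real.exp (v / 2) * shortWeight h v *
      ‖jacobiTheta (rotPoint T v) - 1‖ ^ 2 := by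
    refine (Continuous.mul (by fun_prop) (continuous_shortWeight h)).mul
      (((continuous_iff_continuousAt.2 fun v => ?_).sub continuous_const).norm.pow 2)
    exact ContinuousAt.comp (g := jacobiTheta) (f := rotPoint T) (continuousAt_jacobiTheta (himp v))
      (by unfold rotPoint; fun_prop)
  refine ⟨hcont.intervalIntegrable _ _, ?_⟩
  have hlim : ∀ v, Tendsto (fun N => rotSum s k N v) atTop
      (𝓝 ((jacobiTheta (rotPoint T v) - 1) / 2)) := fun v => by
    refine (hasSum_nat_jacobiTheta (himp v)).tendsto_sum_nat.congr fun N => ?_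
    rw [rotSum]
    induction N with
    | zero => simp
    | succ m ih =>
      rw [Finset.sum_range_succ, ih, Finset.sum_Icc_succ_top (by omega)]
      congr 2
      rw [hrot]
      push_cast
      linear_combination ((π : ℂ) * ((m : ℂ) + 1) ^ 2 * (((s : ℂ) + k * I) *
        Complex.exp (v : ℂ))) * I_sq
  obtain ⟨Bd, hBd⟩ : ∃ Bd, Bd = √(π / (π * s)) / 2 := ⟨_, rfl⟩
  have hbound : ∀ (N : ℕ) (v : ℝ), 0 ≤ v → ‖rotSum s k N v‖ ≤ Bd := by
    intro N v hv
    refine (norm_sum_le _ _).trans (le_trans (Finset.sum_le_sum fun n _ => ?_)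
      (hBd ▸ sum_gauss_le (b := π * s) (by positivity) N))
    rw [Complex.norm_exp]
    refine Real.exp_le_exp.2 ?_
    simp only [Complex.neg_re, Complex.add_re, Complex.ofReal_re,
      Complex.mul_re, Complex.I_re, mul_zero, Complex.ofReal_im, Complex.I_im, zero_mul, sub_zero,
      add_zero, neg_le_neg_iff]
    have := mul_le_mul_of_nonneg_left (Real.one_le_exp hv)
      (show 0 ≤ π * s * (n : ℝ) ^ 2 by positivity)
    linarith
  have hdom := intervalIntegral.tendsto_integral_filter_of_dominated_convergence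
    (μ := volume) (a := (0 : ℝ)) (b := V)
    (F := fun N v => Real.exp (v / 2) * shortWeight h v * ‖rotSum s k N v‖ ^ 2)
    (f := fun v => Real.exp (v / 2) * shortWeight h v *
      ‖(jacobiTheta (rotPoint T v) - 1) / 2‖ ^ 2)
    (l := atTop) (fun v => Real.exp (v / 2) * shortWeight h v * Bd ^ 2) ?_ ?_ ?_ ?_
  · have hle : ∫ v in (0 : ℝ)..V, Real.exp (v / 2) * shortWeight h v *
        ‖(jacobiTheta (rotPoint T v) - 1) / 2‖ ^ 2 ≤
          8 * h * √T + 8 * h ^ 2 * (3 + Real.log T) ^ 2 := by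
      refine le_of_tendsto' hdom fun N => (integral_rotSum_le hh hs0 hs1 hk hV N).trans ?_
      refine add_le_add ?_ ?_
      · rw [div_le_iff₀ (Real.sqrt_pos.2 hs0), mul_assoc (8 * h), ← Real.sqrt_mul hT0.le]
        have h2 : 1 / 2 ≤ √(T * s) := by
          refine Real.le_sqrt_of_sq_le ?_
          rw [div_le_iff₀ (by positivity)] at hs2
          linarith
        nlinarith [mul_le_mul_of_nonneg_left h2 hh.le]
      · refine mul_le_mul_of_nonneg_left (pow_le_pow_left₀ ?_ ?_ 2) (by positivity)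
        · have := Real.log_nonneg ((one_le_div (by positivity)).2 hs1)
          linarith
        · refine add_le_add le_rfl (Real.log_le_log (by positivity) ?_)
          rw [div_le_iff₀ (by positivity)]
          rw [div_le_iff₀ (by positivity)] at hs2
          have := mul_le_mul_of_nonneg_left (show (2 : ℝ) ≤ π by linarith [Real.pi_gt_three])
            (mul_pos hT0 hs0).le
          linarith
    refine le_trans (le_of_eq ?_) (mul_le_mul_of_nonneg_left hle (by norm_num : (0 : ℝ) ≤ 4))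
    rw [← intervalIntegral.integral_const_mul]
    refine intervalIntegral.integral_congr fun v _ => ?_
    simp only [norm_div, Complex.norm_two]
    ring
  · refine Eventually.of_forall fun N => Continuous.aestronglyMeasurable ?_
    exact (Continuous.mul (by fun_prop) (continuous_shortWeight h)).mul
      ((continuous_finsetSum _ fun n _ => by fun_prop).norm.pow 2)
  · refine Eventually.of_forall fun N => Eventually.of_forall fun v hv => ?_
    rw [Set.uIoc_of_le hV] at hv
    have := shortWeight_nonneg h v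
    rw [Real.norm_of_nonneg (by positivity)]
    exact mul_le_mul_of_nonneg_left (pow_le_pow_left₀ (norm_nonneg _) (hbound N v hv.1.le) 2)
      (by positivity)
  · exact ((Continuous.mul (by fun_prop) (continuous_shortWeight h)).mul
      continuous_const).intervalIntegrable _ _
  · exact Eventually.of_forall fun v _ => ((hlim v).norm.pow 2).const_mul _

/-- **The mean square of the short integrals.** -/
theorem exists_shortInt_sq_le : ∃ C, 0 < C ∧ ∀ T h : ℝ, 4 ≤ T → 1 ≤ h →
    ∀ a b : ℝ, a ≤ b → ∫ u in a..b, ‖shortInt T h u‖ ^ 2 ≤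
      C * (h * √T + h ^ 2 * (3 + Real.log T) ^ 2) := by
  refine ⟨16 * π * 32 + 4 * π ^ 2, by positivity, fun T h hT hh a b hab => ?_⟩
  have hT2 : 2 ≤ T := by linarith
  have hh0 : 0 < h := by linarith
  obtain ⟨Φ, hΦ⟩ : ∃ Φ : ℝ → ℝ, Φ = fun v => 2 * π ^ 2 *
      (Real.exp (v / 2) * shortWeight h v * ‖jacobiTheta (rotPoint T v) - 1‖ ^ 2 +
        shortWeight h v) := ⟨_, rfl⟩
  have hi1 := integrable_shortInt hT2 hh0.le
  have hi2 := memLp_shortInt hT2 hh0.le
  have hFc : Continuous (𝓕 (shortInt T h)) :=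
    VectorFourier.fourierIntegral_continuous Real.continuous_fourierChar
      (L := innerₗ ℝ) continuous_inner hi1
  have hpos : ∀ ξ, 0 ≤ ξ → ‖𝓕 (shortInt T h) ξ‖ ^ 2 ≤ Φ (2 * π * ξ) := fun ξ hξ => by
    rw [fourier_shortInt hT2 hh0.le, norm_mul, mul_pow, hΦ]
    simp only
    refine (mul_le_mul (norm_windowKernel_sq_le hh0.le ξ) (norm_fourier_tiltH_sq_le hT2 hξ)
      (sq_nonneg _) (shortWeight_nonneg _ _)).trans (le_of_eq ?_)
    ring
  have hneg : ∀ ξ, 0 ≤ ξ → ‖𝓕 (shortInt T h) (-ξ)‖ ^ 2 ≤ Φ (2 * π * ξ) := fun ξ hξ => by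
    rw [fourier_shortInt hT2 hh0.le, ← conj_fourier_tiltH, norm_mul, Complex.norm_conj, mul_pow,
      hΦ]
    simp only
    refine (mul_le_mul (norm_windowKernel_sq_le hh0.le (-ξ)) (norm_fourier_tiltH_sq_le hT2 hξ)
      (sq_nonneg _) (shortWeight_nonneg _ _)).trans (le_of_eq ?_)
    rw [show shortWeight h (2 * π * -ξ) = shortWeight h (2 * π * ξ) by
      unfold shortWeight; ring_nf]
    ring
  obtain ⟨B, hB⟩ : ∃ B, B = 2 * π ^ 2 *
      (4 * (8 * h * √T + 8 * h ^ 2 * (3 + Real.log T) ^ 2) + 2 * π * h) := ⟨_, rfl⟩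
  have hΦint : ∀ V, 0 ≤ V → IntervalIntegrable Φ volume 0 V ∧
      ∫ v in (0 : ℝ)..V, Φ v ≤ B := fun V hV => by
    obtain ⟨h1, h2⟩ := integral_theta_le hT hh0 hV
    have h3 := (continuous_shortWeight h).intervalIntegrable (μ := volume) 0 V
    rw [hΦ]
    refine ⟨(h1.add h3).const_mul _, ?_⟩
    rw [intervalIntegral.integral_const_mul, intervalIntegral.integral_add h1 h3, hB]
    exact mul_le_mul_of_nonneg_left (add_le_add h2 (integral_shortWeight_le hh0 V)) (by positivity)
  obtain ⟨f, hf⟩ : ∃ f : ℝ → ℝ, f = fun ξ => ‖𝓕 (shortInt T h) ξ‖ ^ 2 := ⟨_, rfl⟩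
  have hfc : Continuous f := hf ▸ hFc.norm.pow 2
  have hwin : ∀ V : ℝ, 0 ≤ V → ∫ ξ in (-V)..V, f ξ ≤ B / π := by
    intro V hV
    obtain ⟨hΦ1, hΦ2⟩ := hΦint (2 * π * V) (by positivity)
    have hcomp : IntervalIntegrable (fun ξ => Φ (2 * π * ξ)) volume 0 V := by
      have := hΦ1.comp_mul_left (c := 2 * π)
      simpa [mul_div_cancel_left₀ _ (show 2 * π ≠ 0 by positivity)] using this
    have hval : ∫ ξ in (0 : ℝ)..V, Φ (2 * π * ξ) ≤ B / (2 * π) := by
      rw [intervalIntegral.integral_comp_mul_left Φ (by positivity), mul_zero, smul_eq_mul,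
        inv_mul_eq_div]
      exact div_le_div_of_nonneg_right hΦ2 (by positivity)
    rw [← intervalIntegral.integral_add_adjacent_intervals (b := 0)
      (hfc.intervalIntegrable _ _) (hfc.intervalIntegrable _ _)]
    have h1 : ∫ ξ in (-V)..0, f ξ ≤ B / (2 * π) := by
      rw [show (0 : ℝ) = -0 by simp, ← intervalIntegral.integral_comp_neg]
      refine le_trans (intervalIntegral.integral_mono_on hV
        ((hfc.comp continuous_neg).intervalIntegrable _ _) hcomp fun ξ hξ => ?_) hval
      rw [hf]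
      exact hneg ξ hξ.1
    have h2 : ∫ ξ in (0 : ℝ)..V, f ξ ≤ B / (2 * π) :=
      le_trans (intervalIntegral.integral_mono_on hV (hfc.intervalIntegrable _ _) hcomp
        fun ξ hξ => by rw [hf]; exact hpos ξ hξ.1) hval
    have : B / π = B / (2 * π) + B / (2 * π) := by field_simp; ring
    linarith
  have hnat : Tendsto (fun n : ℕ => (n : ℝ)) atTop atTop := tendsto_natCast_atTop_atTop
  have hnat' : Tendsto (fun n : ℕ => -(n : ℝ)) atTop atBot :=
    tendsto_neg_atTop_atBot.comp hnat
  have hfint : Integrable f := by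
    refine integrable_of_intervalIntegral_norm_bounded (B / π) (fun n => hfc.integrableOn_Ioc)
      hnat' hnat (Eventually.of_forall fun n => ?_)
    refine le_of_eq_of_le (intervalIntegral.integral_congr fun ξ _ => ?_)
      (hwin n (Nat.cast_nonneg n))
    rw [hf]
    exact Real.norm_of_nonneg (sq_nonneg _)
  have hfB : ∫ ξ, f ξ ≤ B / π :=
    le_of_tendsto' (intervalIntegral_tendsto_integral hfint hnat' hnat)
      fun n => hwin n (Nat.cast_nonneg n)
  have hgint : Integrable fun u => ‖shortInt T h u‖ ^ 2 :=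
    (memLp_two_iff_integrable_sq_norm (continuous_shortInt T h).aestronglyMeasurable).1 hi2
  have hPl : ∫ u, ‖shortInt T h u‖ ^ 2 = ∫ ξ, f ξ := by
    rw [integral_eq_lintegral_of_nonneg_ae (Eventually.of_forall fun u => sq_nonneg _)
        hgint.aestronglyMeasurable,
      integral_eq_lintegral_of_nonneg_ae
        (Eventually.of_forall fun ξ => by rw [hf]; exact sq_nonneg _)
        hfint.aestronglyMeasurable]
    congr 1
    simp only [hf, ENNReal.ofReal_pow (norm_nonneg _), ofReal_norm]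
    exact (FA.Halasz.lintegral_enorm_fourier_sq hi1 hi2).symm
  rw [intervalIntegral.integral_of_le hab]
  refine ((setIntegral_le_integral hgint (Eventually.of_forall fun u => sq_nonneg _)).trans
    (hPl.trans_le hfB)).trans ?_
  rw [hB, div_le_iff₀ Real.pi_pos]
  have hsT : 1 ≤ √T := Real.one_le_sqrt.2 (by linarith)
  have e1 := mul_le_mul_of_nonneg_left hsT hh0.le
  have e2 : 0 ≤ h ^ 2 * (3 + Real.log T) ^ 2 := by positivity
  have e3 : 0 ≤ π ^ 2 := sq_nonneg _
  nlinarith [mul_le_mul_of_nonneg_left e1 (pow_nonneg Real.pi_pos.le 3),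
    mul_nonneg e3 e2, mul_nonneg e3 (show 0 ≤ h * √T by positivity),
    mul_nonneg (pow_nonneg Real.pi_pos.le 3) e2]

end FA.HardyLittlewoodZeros
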