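import Fermat.Agent.SecondMoment.Approx
import Fermat.Agent.MeanValue.Dirichlet

/-!
# The integral of `ζ - 1` over short windows of the critical line

For `h ≤ U` and `u ∈ [U, 2U]`, `‖∫_u^(u+h) (ζ (1/2 + 2iy) - 1) dy‖` is at most
`windowPoly U h u + 2000 + h / 5`, and `windowPoly` is square bounded in mean.
-/

set_option autoImplicit false

noncomputable section

namespace FA.HardyLittlewoodZeros

open Finset Complex MeasureTheory
open FA.Subconvexity (expI phase)
open scoped Real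

/-- The weight `1 / (√n log n)`. -/
def logWeight (n : ℕ) : ℝ := 1 / √(n : ℝ) * (1 / Real.log n)

/-- `∑_{n ≤ M} n^(-it) / (√n log n)`. -/
def logPoly (M : ℕ) (t : ℝ) : ℂ := ∑ n ∈ Icc 1 M, (logWeight n : ℂ) * expI (phase t n)

theorem logWeight_one : logWeight 1 = 0 := by simp [logWeight]

theorem continuous_logPoly (M : ℕ) : Continuous (logPoly M) := by
  unfold logPoly
  refine continuous_finsetSum _ fun n _ => continuous_const.mul ?_
  unfold expI phase
  fun_prop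

theorem integral_expI {b : ℝ} (hb : b ≠ 0) (u v : ℝ) :
    ∫ y in u..v, expI (b * y) = (expI (b * v) - expI (b * u)) / ((b : ℂ) * I) := by
  have e : ∀ y : ℝ, expI (b * y) = cexp ((b : ℂ) * I * y) := fun y => by
    rw [expI]
    push_cast
    ring_nf
  simp only [e]
  exact integral_exp_mul_complex (mul_ne_zero (ofReal_ne_zero.2 hb) I_ne_zero)

/-- A stretch of the series, integrated over a window. -/
theorem integral_block {u h : ℝ} {a b : ℕ} (ha : 2 ≤ a) :
    ∫ y in u..(u + h), ∑ n ∈ Ico a b, 1 / (n : ℂ) ^ ((1 / 2 : ℂ) + (2 * y : ℝ) * I) =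
      (I / 2) * ((∑ n ∈ Ico a b, (logWeight n : ℂ) * expI (phase (2 * (u + h)) n)) -
        ∑ n ∈ Ico a b, (logWeight n : ℂ) * expI (phase (2 * u) n)) := by
  have hn1 : ∀ n ∈ Ico a b, 1 ≤ n := fun n hn => by rw [mem_Ico] at hn; omega
  have hterm : ∀ y : ℝ, ∑ n ∈ Ico a b, 1 / (n : ℂ) ^ ((1 / 2 : ℂ) + (2 * y : ℝ) * I) =
      ∑ n ∈ Ico a b, ((1 / √(n : ℝ) : ℝ) : ℂ) * expI ((-(2 * Real.log n)) * y) := fun y =>
    sum_congr rfl fun n hn => by
      rw [FA.Subconvexity.term_eq (hn1 n hn), phase]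
      ring_nf
  simp only [hterm]
  rw [intervalIntegral.integral_finsetSum fun (n : ℕ) _ =>
      ((by unfold expI; fun_prop : Continuous fun y : ℝ => ((1 / √(n : ℝ) : ℝ) : ℂ) *
        expI ((-(2 * Real.log n)) * y))).intervalIntegrable _ _,
    ← sum_sub_distrib, mul_sum]
  refine sum_congr rfl fun n hn => ?_
  rw [mem_Ico] at hn
  have hlog : Real.log (n : ℝ) ≠ 0 :=
    (Real.log_pos (Nat.one_lt_cast.2 (by omega))).ne'
  rw [intervalIntegral.integral_const_mul,
    integral_expI (neg_ne_zero.2 (mul_ne_zero two_ne_zero hlog)),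
    logWeight, phase, phase]
  have hlC : ((Real.log (n : ℝ) : ℝ) : ℂ) ≠ 0 := ofReal_ne_zero.2 hlog
  rw [show -(2 * Real.log (n : ℝ)) * (u + h) = -(2 * (u + h) * Real.log n) by ring,
    show -(2 * Real.log (n : ℝ)) * u = -(2 * u * Real.log n) by ring,
    show ((-(2 * Real.log (n : ℝ)) : ℝ) : ℂ) = -(2 * (Real.log (n : ℝ) : ℂ)) by push_cast; ring]
  push_cast
  field_simp
  rw [Complex.I_sq]
  ring

/-- The tail with its weights. -/
theorem norm_tail_weight_le {t : ℝ} (ht : 1 ≤ t) {a b : ℕ} (hta : t ≤ a) (hab : a ≤ b)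
    (hl : 1 ≤ Real.log a) :
    ‖∑ n ∈ Ico a b, (logWeight n : ℂ) * expI (phase t n)‖ ≤ 4 + 44 * √(b : ℝ) / t := by
  have ha0 : (0 : ℝ) < a := by linarith
  have ha2 : 2 ≤ a := by
    by_contra h
    have : Real.log (a : ℝ) ≤ 0 := Real.log_nonpos ha0.le (Nat.cast_le_one.2 (by omega))
    linarith
  rw [sum_congr rfl fun n hn => show (logWeight n : ℂ) * expI (phase t n) =
    (((1 / Real.log n : ℝ)) : ℂ) * (1 / (n : ℂ) ^ ((1 / 2 : ℂ) + t * I)) by
      rw [FA.Subconvexity.term_eq (by rw [mem_Ico] at hn; omega), logWeight, Complex.ofReal_mul]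
      ring]
  refine (FA.Subconvexity.norm_sum_weight_le (w := fun n => 1 / Real.log n)
    (B := 4 + 44 * √(b : ℝ) / t) hab (fun m _ _ => one_div_nonneg.2 (Real.log_natCast_nonneg m))
    (fun m hm _ => ?_) fun m hm hm' => ?_).trans ?_
  · exact one_div_le_one_div_of_le (Real.log_pos (Nat.one_lt_cast.2 (by omega)))
      (Real.log_le_log (Nat.cast_pos.2 (by omega)) (Nat.cast_le.2 m.le_succ))
  · refine (FA.SecondMoment.norm_zeta_tail_le ht _ a m rfl hta hm).trans (add_le_add ?_ ?_)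
    · exact div_le_self (by norm_num) (Real.one_le_sqrt.2 (by exact_mod_cast (by omega : 1 ≤ a)))
    · refine div_le_div_of_nonneg_right ?_ (by linarith)
      linarith [Real.sqrt_nonneg (a : ℝ), Real.sqrt_le_sqrt (Nat.cast_le.2 hm' : (m : ℝ) ≤ b)]
  · refine mul_le_of_le_one_left (by positivity) ?_
    rw [div_le_one (by linarith)]
    exact hl

theorem log_five_mul_ge {x : ℝ} (hx : 5 ≤ x) : 1 ≤ Real.log x := by
  rw [Real.le_log_iff_exp_le (by linarith)]
  linarith [Real.exp_one_lt_three]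

/-- The pole term over a window. -/
theorem norm_pole_window_le {u h : ℝ} (hu : 1 ≤ u) (hh : 0 ≤ h) (hhu : h ≤ u) {X : ℕ}
    (hX : 5 ≤ (X : ℝ)) :
    ‖∫ y in u..(u + h), (X : ℂ) ^ (1 - ((1 / 2 : ℂ) + (2 * y : ℝ) * I)) /
        ((1 / 2 : ℂ) + (2 * y : ℝ) * I - 1)‖ ≤ √(X : ℝ) / u := by
  obtain ⟨L, hL⟩ : ∃ L, L = Real.log (X : ℝ) := ⟨_, rfl⟩
  have hL1 : 1 ≤ L := hL ▸ log_five_mul_ge hX
  have hX0 : (0 : ℝ) < X := by linarith
  obtain ⟨d, hd⟩ : ∃ d : ℝ → ℂ, d = fun y => (1 / 2 : ℂ) + (2 * y : ℝ) * I - 1 := ⟨_, rfl⟩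
  have hdn : ∀ y, u ≤ y → 2 * u ≤ ‖d y‖ := fun y hy => by
    have := Complex.abs_im_le_norm (d y)
    rw [hd] at this ⊢
    simp only at this ⊢
    rw [show (((1 / 2 : ℂ) + (2 * y : ℝ) * I - 1)).im = 2 * y by simp,
      abs_of_pos (by linarith)] at this
    linarith
  have hd0 : ∀ y, u ≤ y → d y ≠ 0 := fun y hy => norm_pos_iff.1 (by linarith [hdn y hy])
  obtain ⟨E, hE⟩ : ∃ E : ℝ → ℂ, E = fun y => expI ((-(2 * L)) * y) / (((-(2 * L) : ℝ) : ℂ) * I) :=
    ⟨_, rfl⟩
  have hL0 : (-(2 * L)) ≠ 0 := by linarith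
  have hEd : ∀ y, HasDerivAt E (expI ((-(2 * L)) * y)) y := fun y => by
    rw [hE]
    unfold expI
    refine ((((hasDerivAt_id' y).const_mul (-(2 * L))).ofReal_comp.mul_const I).cexp.div_const
      _).congr_deriv ?_
    have : (L : ℂ) ≠ 0 := ofReal_ne_zero.2 (by linarith)
    push_cast
    field_simp
  have hEn : ∀ y, ‖E y‖ ≤ 1 / 2 := fun y => by
    rw [hE]
    simp only
    rw [norm_div, FA.Subconvexity.norm_expI, norm_mul, Complex.norm_I, mul_one, Complex.norm_real,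
      Real.norm_eq_abs, abs_neg, abs_of_nonneg (by linarith)]
    exact one_div_le_one_div_of_le two_pos (by linarith)
  have hinv : ∀ y ∈ Set.uIcc u (u + h),
      HasDerivAt (fun y => (d y)⁻¹) (-(2 * I) / d y ^ 2) y := fun y hy => by
    rw [Set.uIcc_of_le (by linarith)] at hy
    have hdd : HasDerivAt d (2 * I) y := by
      rw [hd]
      refine ((((hasDerivAt_id' y).const_mul 2).ofReal_comp.mul_const I).const_add
        (1 / 2 : ℂ)).sub_const 1 |>.congr_deriv ?_
      push_cast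
      ring
    exact hdd.fun_inv (hd0 y hy.1)
  have hdc : Continuous d := by rw [hd]; fun_prop
  have hd2 : ContinuousOn (fun y => -(2 * I) / d y ^ 2) (Set.uIcc u (u + h)) :=
    continuousOn_const.div ((hdc.pow 2).continuousOn) fun y hy => by
      rw [Set.uIcc_of_le (by linarith)] at hy
      exact pow_ne_zero 2 (hd0 y hy.1)
  have e : Set.EqOn (fun y : ℝ => (X : ℂ) ^ (1 - ((1 / 2 : ℂ) + (2 * y : ℝ) * I)) /
        ((1 / 2 : ℂ) + (2 * y : ℝ) * I - 1))
      (fun y => (√(X : ℝ) : ℂ) * ((d y)⁻¹ * expI ((-(2 * L)) * y))) (Set.uIcc u (u + h)) := by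
    intro y _
    simp only
    have hsq : (√(X : ℝ) : ℂ) = cexp (((L / 2 : ℝ) : ℂ)) := by
      rw [← Complex.ofReal_exp, hL, Real.exp_half, Real.exp_log hX0]
    rw [hd, hsq, Complex.cpow_def_of_ne_zero (Nat.cast_ne_zero.2 (by
      rintro rfl; simp at hX0)), ← Complex.natCast_log, expI, ← hL]
    simp only
    rw [mul_left_comm, ← Complex.exp_add, div_eq_inv_mul]
    congr 2
    push_cast
    ring
  rw [intervalIntegral.integral_congr e, intervalIntegral.integral_const_mul, norm_mul,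
    Complex.norm_real, Real.norm_of_nonneg (Real.sqrt_nonneg _)]
  rw [div_eq_mul_inv]
  refine mul_le_mul_of_nonneg_left ?_ (Real.sqrt_nonneg _)
  rw [intervalIntegral.integral_mul_deriv_eq_deriv_mul hinv (fun y _ => hEd y)
    hd2.intervalIntegrable ((by unfold expI; fun_prop :
      Continuous fun y : ℝ => expI ((-(2 * L)) * y)).intervalIntegrable _ _)]
  have hb : ∀ y, u ≤ y → ‖(d y)⁻¹ * E y‖ ≤ 1 / (4 * u) := fun y hy => by
    rw [norm_mul, norm_inv]
    refine (mul_le_mul (inv_anti₀ (by linarith) (hdn y hy)) (hEn y) (norm_nonneg _)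
      (by positivity)).trans (le_of_eq ?_)
    ring
  have hint : ‖∫ y in u..(u + h), -(2 * I) / d y ^ 2 * E y‖ ≤ 1 / (4 * u) := by
    refine (intervalIntegral.norm_integral_le_of_norm_le_const (C := 1 / (4 * u ^ 2))
      fun y hy => ?_).trans ?_
    · rw [Set.uIoc_of_le (by linarith)] at hy
      rw [norm_mul, norm_div, norm_neg, norm_mul, Complex.norm_two, Complex.norm_I, mul_one,
        norm_pow]
      refine (mul_le_mul (div_le_div_of_nonneg_left zero_le_two (by positivity)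
        (pow_le_pow_left₀ (by linarith) (hdn y hy.1.le) 2)) (hEn y) (norm_nonneg _)
        (by positivity)).trans (le_of_eq ?_)
      field_simp
      norm_num
    · rw [add_sub_cancel_left, abs_of_nonneg hh, one_div_mul_eq_div,
        div_le_div_iff₀ (by positivity) (by positivity)]
      nlinarith
  refine (norm_sub_le _ _).trans ((add_le_add ((norm_sub_le _ _).trans
    (add_le_add (hb (u + h) (by linarith)) (hb u le_rfl))) hint).trans ?_)
  rw [show 1 / (4 * u) + 1 / (4 * u) + 1 / (4 * u) = (3 / 4) * u⁻¹ by field_simp; ring]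
  nlinarith [inv_pos.2 (show 0 < u by linarith)]

/-- The Dirichlet polynomial bounding the window integrals. -/
def windowPoly (U h u : ℝ) : ℝ :=
  (‖logPoly ⌊5 * U⌋₊ (2 * (u + h))‖ + ‖logPoly ⌊5 * U⌋₊ (2 * u)‖) / 2

theorem continuous_windowPoly (U h : ℝ) : Continuous (windowPoly U h) :=
  ((((continuous_logPoly _).comp (by fun_prop)).norm.add
    ((continuous_logPoly _).comp (by fun_prop)).norm).div_const 2)

/-- **The window integral of `ζ - 1`.** -/
theorem norm_window_le {U h u : ℝ} (hU : 2 ≤ U) (hh : 1 ≤ h) (hhU : 2 * h ≤ U) (hu : U ≤ u)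
    (hu2 : u ≤ 2 * U) :
    ‖∫ y in u..(u + h), (riemannZeta ((1 / 2 : ℂ) + (2 * y : ℝ) * I) - 1)‖ ≤
      windowPoly U h u + 2000 + h / 5 := by
  obtain ⟨M, hM⟩ : ∃ M, M = ⌊5 * U⌋₊ := ⟨_, rfl⟩
  obtain ⟨X, hX⟩ : ∃ X, X = ⌈(80 * U) ^ 2⌉₊ := ⟨_, rfl⟩
  have hM1 : 5 * U ≤ (M : ℝ) + 1 := hM ▸ (Nat.lt_floor_add_one _).le
  have hM2 : (M : ℝ) ≤ 5 * U := hM ▸ Nat.floor_le (by linarith)
  have hX1 : (80 * U) ^ 2 ≤ (X : ℝ) := hX ▸ Nat.le_ceil _
  have hX2 : (X : ℝ) + 1 ≤ (81 * U) ^ 2 := by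
    have := Nat.ceil_lt_add_one (sq_nonneg (80 * U))
    rw [← hX] at this
    nlinarith
  have hX0 : (0 : ℝ) < X := by nlinarith
  have hX1n : 1 ≤ X := Nat.one_le_iff_ne_zero.2 (Nat.cast_ne_zero.1 hX0.ne')
  have hsX : 80 * U ≤ √(X : ℝ) := Real.le_sqrt_of_sq_le hX1
  have hsX2 : √((X : ℝ) + 1) ≤ 81 * U := by
    rw [Real.sqrt_le_iff]; exact ⟨by positivity, hX2⟩
  have hMX : M ≤ X := Nat.cast_le.1 (hM2.trans (by nlinarith))
  have hM9 : 9 ≤ M := by
    have : (9 : ℝ) ≤ M := by linarith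
    exact_mod_cast this
  obtain ⟨R, hR⟩ : ∃ R : ℝ → ℂ, R = fun y => riemannZeta ((1 / 2 : ℂ) + (2 * y : ℝ) * I) - 1 -
      ∑ n ∈ Ico 2 (X + 1), 1 / (n : ℂ) ^ ((1 / 2 : ℂ) + (2 * y : ℝ) * I) -
      (X : ℂ) ^ (1 - ((1 / 2 : ℂ) + (2 * y : ℝ) * I)) /
        ((1 / 2 : ℂ) + (2 * y : ℝ) * I - 1) := ⟨_, rfl⟩
  have hline : ∀ y : ℝ, (((1 / 2 : ℂ) + (2 * y : ℝ) * I)).re = 1 / 2 := fun y => by simp
  have hline1 : ∀ y : ℝ, ((1 / 2 : ℂ) + (2 * y : ℝ) * I) ≠ 1 := fun y h1 => by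
    have := congrArg Complex.re h1
    rw [hline] at this
    norm_num at this
  have hzc : Continuous fun y : ℝ => riemannZeta ((1 / 2 : ℂ) + (2 * y : ℝ) * I) :=
    continuous_iff_continuousAt.2 fun y =>
      ContinuousAt.comp (g := riemannZeta) (f := fun y : ℝ => (1 / 2 : ℂ) + (2 * y : ℝ) * I)
        (differentiableAt_riemannZeta (hline1 y)).continuousAt (by fun_prop)
  have hsc : ∀ a b : ℕ, 1 ≤ a → Continuous fun y : ℝ =>
      ∑ n ∈ Ico a b, 1 / (n : ℂ) ^ ((1 / 2 : ℂ) + (2 * y : ℝ) * I) := fun a b ha =>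
    continuous_finsetSum _ fun n hn => by
      have hn0 : (n : ℂ) ≠ 0 := Nat.cast_ne_zero.2 (by rw [mem_Ico] at hn; omega)
      exact continuous_const.div ((by fun_prop : Continuous fun y : ℝ =>
        (1 / 2 : ℂ) + (2 * y : ℝ) * I).const_cpow (Or.inl hn0))
        fun y => by simp [Complex.cpow_eq_zero_iff, hn0]
  have hpc : Continuous fun y : ℝ => (X : ℂ) ^ (1 - ((1 / 2 : ℂ) + (2 * y : ℝ) * I)) /
      ((1 / 2 : ℂ) + (2 * y : ℝ) * I - 1) :=
    ((by fun_prop : Continuous fun y : ℝ => 1 - ((1 / 2 : ℂ) + (2 * y : ℝ) * I)).const_cpow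
      (Or.inl (Nat.cast_ne_zero.2 (by omega)))).div (by fun_prop) fun y =>
        sub_ne_zero.2 (hline1 y)
  have hRb : ∀ y ∈ Set.uIoc u (u + h), ‖R y‖ ≤ 1 / 5 := by
    intro y hy
    rw [Set.uIoc_of_le (by linarith)] at hy
    have hsplit : Icc 1 X = insert 1 (Ico 2 (X + 1)) := by
      ext i; simp only [mem_Icc, mem_insert, mem_Ico]; omega
    rw [hR]
    simp only
    rw [FA.ZeroFree.riemannZeta_truncated (by rw [hline]; norm_num) (hline1 y) hX1n, hsplit,
      sum_insert (by simp), Nat.cast_one, Complex.one_cpow, one_div_one]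
    obtain ⟨s, hs⟩ : ∃ s : ℂ, s = (1 / 2 : ℂ) + (2 * y : ℝ) * I := ⟨_, rfl⟩
    rw [← hs]
    have hre : s.re = 1 / 2 := hs ▸ hline y
    have hi : ‖∫ v in Set.Ioi (X : ℝ), ((v - (⌊v⌋₊ : ℝ) : ℝ) : ℂ) * (v : ℂ) ^ (-(s + 1))‖ ≤
        (X : ℝ) ^ (-s.re) / s.re := by
      refine (MeasureTheory.norm_integral_le_of_norm_le
        (integrableOn_Ioi_rpow_of_lt (a := -(s.re + 1)) (by rw [hre]; norm_num) hX0) ?_).trans
        (le_of_eq ?_)
      · filter_upwards [MeasureTheory.ae_restrict_mem measurableSet_Ioi] with v hv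
        exact CycloGrowth.norm_fracIntegrand_le (lt_of_le_of_lt (Nat.one_le_cast.2 hX1n) hv)
      · rw [integral_Ioi_rpow_of_lt (by rw [hre]; norm_num) hX0,
          show -(s.re + 1) + 1 = -s.re by ring, neg_div_neg_eq]
    refine le_trans (le_of_eq (congrArg norm (show _ = -(s * ∫ v in Set.Ioi (X : ℝ),
      ((v - (⌊v⌋₊ : ℝ) : ℝ) : ℂ) * (v : ℂ) ^ (-(s + 1))) by ring))) ?_
    rw [norm_neg, norm_mul]
    have hn : ‖s‖ ≤ 6 * U := by
      have := Complex.norm_le_abs_re_add_abs_im s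
      rw [hre, show s.im = 2 * y by rw [hs]; simp,
        abs_of_pos (by linarith [hy.1] : (0 : ℝ) < 2 * y),
        abs_of_pos (by norm_num : (0 : ℝ) < 1 / 2)] at this
      linarith [hy.2]
    refine (mul_le_mul hn hi (norm_nonneg _) (by linarith)).trans ?_
    rw [hre, Real.rpow_neg hX0.le, ← Real.sqrt_eq_rpow,
      show 6 * U * ((√(X : ℝ))⁻¹ / (1 / 2)) = 12 * U / √(X : ℝ) by ring,
      div_le_iff₀ (Real.sqrt_pos.2 hX0)]
    linarith
  have e : ∀ y : ℝ, riemannZeta ((1 / 2 : ℂ) + (2 * y : ℝ) * I) - 1 =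
      (∑ n ∈ Ico 2 (M + 1), 1 / (n : ℂ) ^ ((1 / 2 : ℂ) + (2 * y : ℝ) * I)) +
        (∑ n ∈ Ico (M + 1) (X + 1), 1 / (n : ℂ) ^ ((1 / 2 : ℂ) + (2 * y : ℝ) * I)) +
        (X : ℂ) ^ (1 - ((1 / 2 : ℂ) + (2 * y : ℝ) * I)) /
          ((1 / 2 : ℂ) + (2 * y : ℝ) * I - 1) + R y := fun y => by
    rw [sum_Ico_consecutive _ (by omega) (by omega), hR]
    ring
  have hRc : Continuous R := by
    rw [hR]; exact ((hzc.sub continuous_const).sub (hsc _ _ (by omega))).sub hpc
  have c1 := (hsc 2 (M + 1) (by omega)).intervalIntegrable (μ := volume) u (u + h)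
  have c2 := (hsc (M + 1) (X + 1) (by omega)).intervalIntegrable (μ := volume) u (u + h)
  have c3 := hpc.intervalIntegrable (μ := volume) u (u + h)
  simp only [e]
  rw [intervalIntegral.integral_add ((c1.add c2).add c3) (hRc.intervalIntegrable _ _),
    intervalIntegral.integral_add (c1.add c2) c3, intervalIntegral.integral_add c1 c2,
    integral_block le_rfl, integral_block (show 2 ≤ M + 1 by omega)]
  have hI2 : ∀ A B : ℂ, ‖I / 2 * (A - B)‖ ≤ (‖A‖ + ‖B‖) / 2 := fun A B => by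
    rw [norm_mul, norm_div, Complex.norm_I, Complex.norm_two, one_div_mul_eq_div]
    exact div_le_div_of_nonneg_right (norm_sub_le _ _) zero_le_two
  have hpoly : ∀ t, ∑ n ∈ Ico 2 (M + 1), (logWeight n : ℂ) * expI (phase t n) = logPoly M t := by
    intro t
    rw [logPoly, show Icc 1 M = insert 1 (Ico 2 (M + 1)) by
      ext i; simp only [mem_Icc, mem_insert, mem_Ico]; omega, sum_insert (by simp), logWeight_one]
    simp
  have hlogM : 1 ≤ Real.log ((M + 1 : ℕ) : ℝ) := log_five_mul_ge (by push_cast; linarith)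
  have htail : ∀ t, 2 * U ≤ t → t ≤ 5 * U →
      ‖∑ n ∈ Ico (M + 1) (X + 1), (logWeight n : ℂ) * expI (phase t n)‖ ≤ 1800 := fun t h1 h2 => by
    refine (norm_tail_weight_le (by linarith) (by push_cast; linarith) (by omega) hlogM).trans ?_
    push_cast
    have : 44 * √((X : ℝ) + 1) / t ≤ 1782 := by
      rw [div_le_iff₀ (by linarith)]
      nlinarith
    linarith
  have b1 := hI2 (∑ n ∈ Ico 2 (M + 1), (logWeight n : ℂ) * expI (phase (2 * (u + h)) n))
    (∑ n ∈ Ico 2 (M + 1), (logWeight n : ℂ) * expI (phase (2 * u) n))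
  rw [hpoly, hpoly] at b1 ⊢
  have b2 := (hI2 (∑ n ∈ Ico (M + 1) (X + 1), (logWeight n : ℂ) * expI (phase (2 * (u + h)) n))
    (∑ n ∈ Ico (M + 1) (X + 1), (logWeight n : ℂ) * expI (phase (2 * u) n))).trans
      (div_le_div_of_nonneg_right (add_le_add (htail _ (by linarith) (by linarith))
        (htail _ (by linarith) (by linarith))) zero_le_two)
  have b3 := (norm_pole_window_le (u := u) (h := h) (by linarith) (by linarith) (by linarith)
    (show 5 ≤ (X : ℝ) by nlinarith)).trans (show √(X : ℝ) / u ≤ 81 by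
      rw [div_le_iff₀ (by linarith)]
      linarith [Real.sqrt_le_sqrt (show (X : ℝ) ≤ X + 1 by linarith)])
  have b4 := intervalIntegral.norm_integral_le_of_norm_le_const hRb
  rw [add_sub_cancel_left, abs_of_nonneg (by linarith)] at b4
  rw [windowPoly, ← hM]
  refine (norm_add_le _ _).trans ((add_le_add ((norm_add₃_le).trans
    (add_le_add (add_le_add b1 b2) b3)) b4).trans ?_)
  linarith

theorem sum_one_div_mul_log_sq_le (M : ℕ) :
    ∑ n ∈ Icc 1 M, 1 / ((n : ℝ) * Real.log n ^ 2) ≤ 6 := by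
  have key : ∀ M : ℕ, 2 ≤ M →
      ∑ n ∈ Icc 1 M, 1 / ((n : ℝ) * Real.log n ^ 2) ≤ 6 - 1 / Real.log M := by
    intro M hM
    induction M, hM using Nat.le_induction with
    | base =>
      have h := Real.log_two_gt_d9
      rw [show Icc 1 2 = ({1, 2} : Finset ℕ) by rfl, sum_pair (by norm_num)]
      norm_num
      have h1 : (Real.log 2)⁻¹ ≤ 3 / 2 := by
        rw [inv_le_comm₀ (by linarith) (by norm_num)]; linarith
      have h2 : (Real.log 2 ^ 2)⁻¹ ≤ 9 / 4 := by
        rw [← inv_pow]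
        exact (pow_le_pow_left₀ (by positivity) h1 2).trans_eq (by norm_num)
      linarith
    | succ m hm ih =>
      rw [sum_Icc_succ_top (by omega)]
      refine (add_le_add ih le_rfl).trans ?_
      have hm1 : (1 : ℝ) < m := Nat.one_lt_cast.2 (by omega)
      have hl : 0 < Real.log m := Real.log_pos hm1
      obtain ⟨h1, -⟩ := FA.Subconvexity.first_diff_log (show 1 ≤ m by omega)
      push_cast
      have hl1 : 0 < Real.log ((m : ℝ) + 1) := Real.log_pos (by linarith)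
      have e : 1 / Real.log m - 1 / Real.log ((m : ℝ) + 1) =
          (Real.log ((m : ℝ) + 1) - Real.log m) / (Real.log m * Real.log ((m : ℝ) + 1)) := by
        field_simp
      have h2 : 1 / (((m : ℝ) + 1) * Real.log ((m : ℝ) + 1) ^ 2) ≤
          1 / Real.log m - 1 / Real.log ((m : ℝ) + 1) := by
        rw [e, ← div_div (1 : ℝ)]
        refine div_le_div₀ (by linarith [show (0 : ℝ) < 1 / ((m : ℝ) + 1) by positivity]) h1
          (mul_pos hl hl1) ?_
        rw [sq]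
        exact mul_le_mul_of_nonneg_right (Real.log_le_log (by linarith) (by linarith)) hl1.le
      linarith
  rcases le_or_gt 2 M with h | h
  · exact (key M h).trans (sub_le_self _ (one_div_nonneg.2 (Real.log_natCast_nonneg M)))
  · interval_cases M <;> simp

/-- **The mean square of `logPoly`.** -/
theorem integral_logPoly_le (M : ℕ) {u v : ℝ} (huv : u ≤ v) :
    ∫ t in u..v, ‖logPoly M t‖ ^ 2 ≤ 6 * (v - u) + 110 * M := by
  have h := (abs_le.1 (FA.MeanValue.mean_value_dirichlet (fun n => (logWeight n : ℂ)) M u v)).2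
  have e : ∀ t : ℝ, logPoly M t =
      ∑ n ∈ Icc 1 M, (logWeight n : ℂ) * (n : ℂ) ^ (-(I * (t : ℂ))) := fun t =>
    sum_congr rfl fun n hn => by
      rw [Complex.cpow_def_of_ne_zero
        (Nat.cast_ne_zero.2 (Nat.one_le_iff_ne_zero.1 (mem_Icc.1 hn).1)), ← Complex.natCast_log,
        expI, phase]
      congr 2
      push_cast
      ring
  simp only [← e] at h
  have hsq : ∀ n ∈ Icc 1 M,
      ‖(logWeight n : ℂ)‖ ^ 2 = 1 / ((n : ℝ) * Real.log n ^ 2) := fun n _ => by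
    rw [Complex.norm_real, Real.norm_eq_abs, sq_abs, logWeight, mul_pow, one_div_pow, one_div_pow,
      Real.sq_sqrt (Nat.cast_nonneg n), div_mul_div_comm, one_mul]
  rw [sum_congr rfl hsq] at h
  have h1 : (v - u) * ∑ n ∈ Icc 1 M, 1 / ((n : ℝ) * Real.log n ^ 2) ≤ (v - u) * 6 :=
    mul_le_mul_of_nonneg_left (sum_one_div_mul_log_sq_le M) (sub_nonneg.2 huv)
  have h2 : ∑ n ∈ Icc 1 M, ((n : ℝ) + 1 / 2) * ‖(logWeight n : ℂ)‖ ^ 2 ≤
      (27 / 4 : ℝ) * (M : ℝ) := by
    refine (sum_le_card_nsmul _ _ (27 / 4) fun n hn => ?_).trans (le_of_eq ?_)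
    · rw [hsq n hn]
      rcases (mem_Icc.1 hn).1.eq_or_lt with rfl | h2n
      · norm_num
      have hn2 : (2 : ℝ) ≤ n := by exact_mod_cast h2n
      have hl : 2 / 3 ≤ Real.log (n : ℝ) := by
        linarith [Real.log_le_log two_pos hn2, Real.log_two_gt_d9]
      rw [← mul_div_assoc, mul_one, div_le_iff₀ (mul_pos (by linarith) (pow_pos (by linarith) 2))]
      have hl2 : (4 : ℝ) / 9 ≤ Real.log (n : ℝ) ^ 2 := by nlinarith
      nlinarith [mul_le_mul_of_nonneg_left hl2 (show (0 : ℝ) ≤ n by linarith)]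
    · rw [Nat.card_Icc, Nat.add_sub_cancel, nsmul_eq_mul]
      ring
  have h3 := mul_le_mul_of_nonneg_left h2 (show 0 ≤ 4 * π by positivity)
  have h4 : 4 * π * (27 / 4 * (M : ℝ)) ≤ 110 * M := by
    nlinarith [Real.pi_lt_four, (Nat.cast_nonneg M : (0 : ℝ) ≤ M)]
  linarith

/-- **The mean square of `windowPoly`.** -/
theorem integral_windowPoly_le {U : ℝ} (h : ℝ) (hU : 0 ≤ U) :
    ∫ u in U..(2 * U), windowPoly U h u ^ 2 ≤ 300 * U := by
  obtain ⟨M, hM⟩ : ∃ M, M = ⌊5 * U⌋₊ := ⟨_, rfl⟩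
  have hM2 : (M : ℝ) ≤ 5 * U := hM ▸ Nat.floor_le (by linarith)
  have hcf : Continuous fun t => ‖logPoly M t‖ ^ 2 := (continuous_logPoly M).norm.pow 2
  have h1 := integral_logPoly_le M (show 2 * U + 2 * h ≤ 4 * U + 2 * h by linarith)
  have h2 := integral_logPoly_le M (show 2 * U ≤ 4 * U by linarith)
  have hle : ∀ u, windowPoly U h u ^ 2 ≤
      (‖logPoly M (2 * u + 2 * h)‖ ^ 2 + ‖logPoly M (2 * u)‖ ^ 2) / 2 := fun u => by
    rw [windowPoly, ← hM, mul_add]
    nlinarith [sq_nonneg (‖logPoly M (2 * u + 2 * h)‖ - ‖logPoly M (2 * u)‖)]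
  have c1 := (hcf.comp (by fun_prop : Continuous fun u : ℝ => 2 * u + 2 * h)).intervalIntegrable
    (μ := volume) U (2 * U)
  have c2 := (hcf.comp (by fun_prop : Continuous fun u : ℝ => 2 * u)).intervalIntegrable
    (μ := volume) U (2 * U)
  simp only [Function.comp_def] at c1 c2
  refine (intervalIntegral.integral_mono_on (by linarith)
    (((continuous_windowPoly U h).pow 2).intervalIntegrable _ _) ((c1.add c2).div_const 2)
    fun u _ => hle u).trans ?_
  rw [intervalIntegral.integral_div, intervalIntegral.integral_add c1 c2,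
    intervalIntegral.integral_comp_mul_add (fun t => ‖logPoly M t‖ ^ 2) two_ne_zero,
    intervalIntegral.integral_comp_mul_left (fun t => ‖logPoly M t‖ ^ 2) two_ne_zero,
    smul_eq_mul, smul_eq_mul, show 2 * (2 * U) = 4 * U by ring]
  linarith

end FA.HardyLittlewoodZeros
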