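import Fermat.Agent.HardyLittlewoodZeros.Gamma
import Fermat.Agent.HardyLittlewoodZeros.Fourier
import Fermat.Agent.HardyLittlewoodZeros.Psi
import Fermat.Agent.RiemannMangoldt.Xi

/-!
# `N₀ T ≫ T`: the theorem of Hardy and Littlewood

On a window `[u, u + h]` without zero, `‖shortInt‖` equals `∫ ‖tiltH‖`, which is at least
`U ^ (-1/4) (h / 2 - windowPoly)`; by the two mean squares this happens in few windows.
-/

set_option autoImplicit false

noncomputable section

namespace FA.HardyLittlewoodZeros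

open MeasureTheory Complex FA.HardyZeros
open scoped Real

/-- The lower bound for the factor of `ζ` in `tiltH`. -/
theorem norm_tiltH_ge {T y : ℝ} (hT : 1 ≤ T) (h1 : T ≤ y) (h2 : y ≤ 3 * T) :
    Real.exp (-3) / 4 / √(√T) * ‖riemannZeta ((1 / 2 : ℂ) + (2 * y : ℝ) * I)‖ ≤
      ‖tiltH T y‖ := by
  have hy : 0 < y := by linarith
  have hre : 0 < (linePt y).re := by rw [linePt_re]; norm_num
  obtain ⟨E, hE⟩ : ∃ E, E = Real.exp (tilt T * y) := ⟨_, rfl⟩
  obtain ⟨G, hG⟩ : ∃ G, G = ‖Complex.Gamma (((1 / 4 : ℝ) : ℂ) + y * I)‖ := ⟨_, rfl⟩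
  have hn : ‖tiltH T y‖ = E * (π ^ (-(1 / 4) : ℝ) * G *
      ‖riemannZeta ((1 / 2 : ℂ) + (2 * y : ℝ) * I)‖) := by
    rw [tiltH, Complex.ofReal_mul, norm_mul, ofReal_hardyH, completed_eq_mul hre, norm_mul,
      Complex.norm_real, Real.norm_of_nonneg (Real.exp_pos _).le, Complex.Gammaℝ_def, norm_mul,
      norm_cpow_eq_rpow_re_of_pos Real.pi_pos, hE, hG]
    have e1 : (-linePt y / 2).re = -(1 / 4 : ℝ) := by simp [linePt]; norm_num
    have e2 : linePt y / 2 = ((1 / 4 : ℝ) : ℂ) + y * I := by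
      rw [linePt]; push_cast; ring
    rw [e1, e2, linePt]
    ring
  rw [hn, ← mul_assoc E]
  refine mul_le_mul_of_nonneg_right ?_ (norm_nonneg _)
  have hG2 := one_le_norm_sq_Gamma_quarter y
  rw [← hG, abs_of_pos hy] at hG2
  obtain ⟨r, hr⟩ : ∃ r, r = √(√T) := ⟨_, rfl⟩
  have hr0 : 0 < r := hr ▸ Real.sqrt_pos.2 (Real.sqrt_pos.2 (by linarith))
  have hr2 : r ^ 2 = √T := hr ▸ Real.sq_sqrt (Real.sqrt_nonneg _)
  rw [← hr]
  have hG3 : Real.exp (-(π * y)) ≤ G ^ 2 * (2 * √T) := by
    rw [Real.exp_neg, inv_le_iff_one_le_mul₀ (Real.exp_pos _)]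
    refine hG2.trans (mul_le_mul_of_nonneg_right (mul_le_mul_of_nonneg_left ?_ (sq_nonneg G))
      (Real.exp_pos _).le)
    rw [Real.sqrt_le_iff, mul_pow, Real.sq_sqrt (by linarith)]
    exact ⟨by positivity, by linarith⟩
  have hG4 : Real.exp (-(π * y / 2)) / (2 * r) ≤ G := by
    rw [div_le_iff₀ (by positivity)]
    refine le_of_pow_le_pow_left₀ (n := 2) two_ne_zero (by rw [hG]; positivity) ?_
    rw [← Real.exp_nat_mul, mul_pow, mul_pow, hr2]
    refine le_trans (le_of_eq (by norm_num; ring_nf)) (hG3.trans ?_)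
    nlinarith [mul_nonneg (sq_nonneg G) (Real.sqrt_nonneg T)]
  have hE2 : Real.exp (-3) ≤ E * Real.exp (-(π * y / 2)) := by
    rw [hE, ← Real.exp_add, tilt]
    refine Real.exp_le_exp.2 ?_
    have : 1 / T * y ≤ 3 := by
      rw [one_div_mul_eq_div, div_le_iff₀ (by linarith)]
      linarith
    linarith
  have hpi : 1 / 2 ≤ π ^ (-(1 / 4) : ℝ) := by
    rw [Real.rpow_neg Real.pi_pos.le, one_div]
    refine inv_anti₀ (by positivity) ?_
    calc π ^ (1 / 4 : ℝ) ≤ (2 ^ (4 : ℝ)) ^ (1 / 4 : ℝ) :=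
          Real.rpow_le_rpow Real.pi_pos.le (by norm_num; linarith [Real.pi_lt_four]) (by norm_num)
      _ = 2 := by rw [← Real.rpow_mul two_pos.le]; norm_num
  calc Real.exp (-3) / 4 / r ≤ E * Real.exp (-(π * y / 2)) / 4 / r := by
        gcongr
    _ = E * ((1 / 2) * (Real.exp (-(π * y / 2)) / (2 * r))) := by ring
    _ ≤ E * (π ^ (-(1 / 4) : ℝ) * G) := by
        refine mul_le_mul_of_nonneg_left (mul_le_mul hpi hG4 (by positivity) (by positivity)) ?_
        rw [hE]
        positivity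

/-- A window without zero makes one of the two functions large. -/
theorem free_window_le {U h u : ℝ} (hU : 4 ≤ U) (hh : 7000 ≤ h) (hhU : 2 * h ≤ U) (hu : U ≤ u)
    (hu2 : u ≤ 2 * U) (hfree : ∀ y ∈ Set.Ioo u (u + h), hardyH y ≠ 0) :
    Real.exp (-3) / 4 / √(√U) * (h / 2) ≤
      ‖shortInt U h u‖ + Real.exp (-3) / 4 / √(√U) * windowPoly U h u := by
  obtain ⟨κ, hκ⟩ : ∃ κ, κ = Real.exp (-3) / 4 / √(√U) := ⟨_, rfl⟩
  have hκ0 : 0 ≤ κ := hκ ▸ by positivity
  rw [← hκ]
  obtain ⟨g, hg⟩ : ∃ g : ℝ → ℝ, g = fun y => hardyH y * Real.exp (tilt U * y) := ⟨_, rfl⟩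
  have hgc : Continuous g := hg ▸ continuous_hardyH.mul (by fun_prop)
  have hne : ∀ y ∈ Set.Ioo u (u + h), g y ≠ 0 := fun y hy => by
    rw [hg]; exact mul_ne_zero (hfree y hy) (Real.exp_pos _).ne'
  have habs : |∫ y in u..(u + h), g y| = ∫ y in u..(u + h), |g y| := by
    have hle : u ≤ u + h := by linarith
    have sign : (∀ y ∈ Set.Ioo u (u + h), 0 ≤ g y) ∨ ∀ y ∈ Set.Ioo u (u + h), g y ≤ 0 := by
      by_contra hc
      push Not at hc
      obtain ⟨⟨a, ha, ha'⟩, b, hb, hb'⟩ := hc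
      obtain ⟨c, hc, hc0⟩ := intermediate_value_uIcc (a := a) (b := b) hgc.continuousOn
        (Set.mem_uIcc.2 (Or.inl ⟨ha'.le, hb'.le⟩))
      exact hne c (Set.OrdConnected.uIcc_subset inferInstance ha hb hc) hc0
    rw [intervalIntegral.integral_of_le hle, intervalIntegral.integral_of_le hle,
      integral_Ioc_eq_integral_Ioo, integral_Ioc_eq_integral_Ioo]
    rcases sign with h0 | h0
    · rw [setIntegral_congr_fun measurableSet_Ioo fun y hy => abs_of_nonneg (h0 y hy)]
      exact abs_of_nonneg (setIntegral_nonneg measurableSet_Ioo h0)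
    · rw [setIntegral_congr_fun measurableSet_Ioo fun y hy => abs_of_nonpos (h0 y hy),
        integral_neg]
      exact abs_of_nonpos (setIntegral_nonpos measurableSet_Ioo h0)
  have hI : ‖shortInt U h u‖ = ∫ y in u..(u + h), |g y| := by
    rw [← habs, shortInt, intervalIntegral.integral_comp_add_left (fun y => tiltH U y), add_zero,
      ← Real.norm_eq_abs, ← Complex.norm_real]
    simp only [tiltH, hg]
    rw [intervalIntegral.integral_ofReal]
  obtain ⟨Z, hZ⟩ : ∃ Z : ℝ → ℂ, Z = fun y => riemannZeta ((1 / 2 : ℂ) + (2 * y : ℝ) * I) :=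
    ⟨_, rfl⟩
  have hZc : Continuous Z := hZ ▸ continuous_iff_continuousAt.2 fun y =>
    ContinuousAt.comp (g := riemannZeta) (f := fun y : ℝ => (1 / 2 : ℂ) + (2 * y : ℝ) * I)
      (differentiableAt_riemannZeta fun h1 => by
        have := congrArg Complex.re h1
        norm_num at this).continuousAt (by fun_prop)
  have hJ : κ * ∫ y in u..(u + h), ‖Z y‖ ≤ ∫ y in u..(u + h), |g y| := by
    rw [← intervalIntegral.integral_const_mul]
    refine intervalIntegral.integral_mono_on (by linarith)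
      ((hZc.norm.const_mul κ).intervalIntegrable _ _)
      (hgc.abs.intervalIntegrable _ _) fun y hy => ?_
    have := norm_tiltH_ge (T := U) (y := y) (by linarith) (hu.trans hy.1) (by linarith [hy.2])
    rw [tiltH, Complex.norm_real, Real.norm_eq_abs, ← hκ] at this
    rw [hg, hZ]
    exact this
  have hlow : h - (windowPoly U h u + 2000 + h / 5) ≤ ∫ y in u..(u + h), ‖Z y‖ := by
    have h1 := intervalIntegral.norm_integral_le_integral_norm (μ := volume) (f := Z)
      (show u ≤ u + h by linarith)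
    have h2 := norm_window_le (show 2 ≤ U by linarith) (show 1 ≤ h by linarith) hhU hu hu2
    rw [hZ] at h1
    rw [intervalIntegral.integral_sub (hZ ▸ hZc.intervalIntegrable _ _) intervalIntegrable_const,
      intervalIntegral.integral_const, add_sub_cancel_left] at h2
    have h3 := norm_sub_norm_le (h • (1 : ℂ))
      (∫ y in u..(u + h), riemannZeta ((1 / 2 : ℂ) + (2 * y : ℝ) * I))
    rw [norm_sub_rev, norm_smul, norm_one, mul_one, Real.norm_of_nonneg (by linarith)] at h3
    rw [hZ]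
    linarith
  rw [hI]
  nlinarith [mul_le_mul_of_nonneg_left hlow hκ0, hJ]

/-- The zeros of `ζ (1/2 + it)`, `0 < t ≤ T`. -/
def lineZeros (T : ℝ) : Set ℝ :=
  {t : ℝ | 0 < t ∧ t ≤ T ∧ riemannZeta (1 / 2 + t * I) = 0}

theorem finite_lineZeros (T : ℝ) : (lineZeros T).Finite := by
  refine ((FA.RiemannMangoldt.finite_zetaZeros T).subset
    (t := (fun t : ℝ => (1 / 2 : ℂ) + t * I) '' lineZeros T) ?_).of_finite_image
      (fun a _ b _ hab => ?_)
  · rintro _ ⟨t, ⟨h0, h1, h2⟩, rfl⟩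
    exact ⟨h2, by simp, by simp; norm_num, by simpa using h0, by simpa using h1⟩
  · simpa using congrArg Complex.im hab

/-- **The theorem of Hardy and Littlewood.** -/
theorem exists_lineZeros_ge : ∃ c : ℝ, 0 < c ∧ ∃ T₀ : ℝ, ∀ T : ℝ, T₀ ≤ T →
    c * T ≤ (lineZeros T).ncard := by
  classical
  obtain ⟨C, hC, hshort⟩ := exists_shortInt_sq_le
  obtain ⟨K, hK⟩ : ∃ K, K = Real.exp (-3) / 4 := ⟨_, rfl⟩
  have hK0 : 0 < K := hK ▸ by positivity
  obtain ⟨D, hD⟩ : ∃ D, D = 8 * C / K ^ 2 + 2400 := ⟨_, rfl⟩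
  have hD0 : 2400 ≤ D := by
    rw [hD]
    have : 0 ≤ 8 * C / K ^ 2 := by positivity
    linarith
  obtain ⟨h, hh⟩ : ∃ h, h = max 7000 (16 * D) := ⟨_, rfl⟩
  have hh7 : 7000 ≤ h := hh ▸ le_max_left _ _
  have hhD : 16 * D ≤ h := hh ▸ le_max_right _ _
  obtain ⟨U₀, hU₀⟩ : ∃ U₀, ∀ U, U₀ ≤ U →
      16 * h ≤ U ∧ (3 + Real.log U) ^ 2 * (16 * D * h) ≤ √U := by
    have h1 : (fun U : ℝ => (3 + Real.log U) ^ 2) =o[Filter.atTop] fun U => √U := by
      have h3 : (fun U : ℝ => 3 + Real.log U) =o[Filter.atTop] fun U => U ^ (1 / 4 : ℝ) := by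
        refine Asymptotics.IsLittleO.add ?_ (isLittleO_log_rpow_atTop (by norm_num))
        exact Asymptotics.isLittleO_const_left.2 (Or.inr (tendsto_norm_atTop_atTop.comp
          (tendsto_rpow_atTop (by norm_num))))
      refine (h3.pow two_pos).congr' Filter.EventuallyEq.rfl ?_
      filter_upwards [Filter.eventually_ge_atTop (0 : ℝ)] with U hU
      rw [← Real.rpow_natCast, ← Real.rpow_mul hU, Real.sqrt_eq_rpow]
      norm_num
    have hpos : 0 < 16 * D * h := by positivity
    refine Filter.eventually_atTop.1 ((Filter.eventually_ge_atTop (16 * h)).and ?_)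
    filter_upwards [h1.bound (one_div_pos.2 hpos)] with U hU
    rw [Real.norm_of_nonneg (sq_nonneg _), Real.norm_of_nonneg (Real.sqrt_nonneg _),
      one_div_mul_eq_div, le_div_iff₀ hpos] at hU
    exact hU
  refine ⟨1 / (64 * h), by positivity, max (4 * U₀) (64 * h), fun T hT => ?_⟩
  obtain ⟨U, hU⟩ : ∃ U, U = T / 4 := ⟨_, rfl⟩
  obtain ⟨hU16, hLU⟩ := hU₀ U (by linarith [le_max_left (4 * U₀) (64 * h)])
  have hU4 : 4 ≤ U := by linarith
  have hsU : 0 < √U := Real.sqrt_pos.2 (by linarith)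
  obtain ⟨J, hJ⟩ : ∃ J, J = ⌊U / (2 * h)⌋₊ := ⟨_, rfl⟩
  obtain ⟨st, hst⟩ : ∃ st : ℕ → ℝ, st = fun j : ℕ => U + 2 * j * h := ⟨_, rfl⟩
  obtain ⟨free, hfree⟩ : ∃ free, free = (Finset.range J).filter fun j =>
      ∀ y ∈ Set.Ico (st j) (st j + 2 * h), hardyH y ≠ 0 := ⟨_, rfl⟩
  have hJU : 2 * (J : ℝ) * h ≤ U := by
    have := Nat.floor_le (show 0 ≤ U / (2 * h) by positivity)
    rw [← hJ, le_div_iff₀ (by linarith)] at this
    linarith
  have hJlow : U ≤ 2 * ((J : ℝ) + 1) * h := by
    have := Nat.lt_floor_add_one (U / (2 * h))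
    rw [← hJ, div_lt_iff₀ (by linarith)] at this
    linarith
  obtain ⟨F, hF⟩ : ∃ F : ℝ → ℝ, F = fun u =>
      ‖shortInt U h u‖ ^ 2 + K ^ 2 / √U * windowPoly U h u ^ 2 := ⟨_, rfl⟩
  have hFc : Continuous F := hF ▸ ((continuous_shortInt U h).norm.pow 2).add
    (continuous_const.mul ((continuous_windowPoly U h).pow 2))
  have hF0 : ∀ u, 0 ≤ F u := fun u => by rw [hF]; positivity
  have hpt : ∀ j ∈ free, h * (K ^ 2 / √U * (h ^ 2 / 8)) ≤
      ∫ u in (st j)..(st j + 2 * h), F u := by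
    intro j hj
    rw [hfree, Finset.mem_filter, Finset.mem_range] at hj
    have hjJ : ((j : ℝ) + 1) ≤ J := by exact_mod_cast hj.1
    have hend : st j + 2 * h ≤ 2 * U := by
      rw [hst]
      nlinarith [mul_le_mul_of_nonneg_right hjJ (show 0 ≤ h by linarith)]
    have hst0 : U ≤ st j := by rw [hst]; simp; positivity
    have hh0 : 0 < h := by linarith
    have hc : ∀ a b : ℝ, IntervalIntegrable F volume a b := fun a b => hFc.intervalIntegrable _ _
    rw [← intervalIntegral.integral_add_adjacent_intervals (hc (st j) (st j + h))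
      (hc (st j + h) (st j + 2 * h))]
    refine le_trans ?_ (le_add_of_nonneg_right
      (intervalIntegral.integral_nonneg (by linarith) fun u _ => hF0 u))
    refine le_trans (le_of_eq ?_) (intervalIntegral.integral_mono_on (by linarith)
      (intervalIntegrable_const (c := K ^ 2 / √U * (h ^ 2 / 8))) (hc _ _) fun u hu => ?_)
    · rw [intervalIntegral.integral_const, add_sub_cancel_left, smul_eq_mul]
    · have hb := free_window_le (u := u) hU4 hh7 (by linarith) (hst0.trans hu.1)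
        (by linarith [hu.2]) fun y hy => hj.2 y ⟨by linarith [hu.1, hy.1], by
          linarith [hu.2, hy.2]⟩
      obtain ⟨κ, hκ⟩ : ∃ κ, κ = K / √(√U) := ⟨_, rfl⟩
      rw [← hK, ← hκ] at hb
      have hκ2 : κ ^ 2 = K ^ 2 / √U := by rw [hκ, div_pow, Real.sq_sqrt hsU.le]
      have hκ0 : 0 ≤ κ := hκ ▸ by positivity
      rw [hF]
      simp only
      rw [← hκ2]
      have := pow_le_pow_left₀ (by positivity) hb 2
      nlinarith [sq_nonneg (‖shortInt U h u‖ - κ * windowPoly U h u)]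
  have hchain : ∀ m : ℕ, m ≤ J → ∑ j ∈ Finset.range m, (∫ u in (st j)..(st j + 2 * h), F u) =
      ∫ u in U..(st m), F u := by
    intro m hm
    have := intervalIntegral.sum_integral_adjacent_intervals (μ := volume) (f := F) (a := st)
      (n := m) fun k _ => hFc.intervalIntegrable _ _
    rw [show st 0 = U by rw [hst]; simp] at this
    rw [← this]
    refine Finset.sum_congr rfl fun j _ => ?_
    rw [show st j + 2 * h = st (j + 1) by rw [hst]; push_cast; ring]
  have htot : (free.card : ℝ) * (h * (K ^ 2 / √U * (h ^ 2 / 8))) ≤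
      C * (h * √U + h ^ 2 * (3 + Real.log U) ^ 2) + K ^ 2 / √U * (300 * U) := by
    have h1 := Finset.card_nsmul_le_sum free _ _ hpt
    rw [nsmul_eq_mul] at h1
    refine h1.trans ?_
    refine (Finset.sum_le_sum_of_subset_of_nonneg (hfree ▸ Finset.filter_subset _ _)
      fun j _ _ => intervalIntegral.integral_nonneg (by linarith) fun u _ => hF0 u).trans ?_
    rw [hchain J le_rfl]
    have hstJ : st J ≤ 2 * U := by rw [hst]; simp only; linarith
    have hstJ0 : U ≤ st J := by rw [hst]; simp; positivity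
    refine (intervalIntegral.integral_mono_interval le_rfl hstJ0 hstJ
      (Filter.Eventually.of_forall hF0) (hFc.intervalIntegrable _ _)).trans ?_
    have i1 : IntervalIntegrable (fun u => ‖shortInt U h u‖ ^ 2) volume U (2 * U) :=
      ((continuous_shortInt U h).norm.pow 2).intervalIntegrable _ _
    have i2 : IntervalIntegrable (fun u => windowPoly U h u ^ 2) volume U (2 * U) :=
      ((continuous_windowPoly U h).pow 2).intervalIntegrable _ _
    rw [hF, intervalIntegral.integral_add i1 (i2.const_mul _), intervalIntegral.integral_const_mul]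
    exact add_le_add (hshort U h hU4 (by linarith) U (2 * U) (by linarith))
      (mul_le_mul_of_nonneg_left (integral_windowPoly_le h (by linarith)) (by positivity))
  have hcard : (free.card : ℝ) ≤ U / (4 * h) := by
    obtain ⟨L, hL⟩ : ∃ L, L = (3 + Real.log U) ^ 2 := ⟨_, rfl⟩
    rw [← hL] at htot hLU
    obtain ⟨r, hr⟩ : ∃ r, r = √U := ⟨_, rfl⟩
    rw [← hr] at htot hLU hsU
    have hrr : r * r = U := hr ▸ Real.mul_self_sqrt (by linarith)
    have hL0 : 0 ≤ L := hL ▸ sq_nonneg _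
    have hf0 : (0 : ℝ) ≤ free.card := Nat.cast_nonneg _
    have e1 := mul_le_mul_of_nonneg_left htot (show 0 ≤ 8 * r / K ^ 2 by positivity)
    have e2 : 8 * r / K ^ 2 * ((free.card : ℝ) * (h * (K ^ 2 / r * (h ^ 2 / 8)))) =
        (free.card : ℝ) * h ^ 3 := by field_simp
    have e3 : 8 * r / K ^ 2 * (C * (h * r + h ^ 2 * L) + K ^ 2 / r * (300 * U)) =
        8 * C / K ^ 2 * (h * U + h ^ 2 * (L * r)) + 2400 * U := by
      rw [← hrr]; field_simp; ring
    rw [e2, e3] at e1
    have hU0 : 0 < U := by linarith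
    have e4 : 8 * C / K ^ 2 * (h * U + h ^ 2 * (L * r)) + 2400 * U ≤
        D * (h * U + h ^ 2 * (L * r)) := by
      rw [hD, add_mul]
      refine add_le_add le_rfl (mul_le_mul_of_nonneg_left ?_ (by norm_num))
      nlinarith [mul_nonneg (sq_nonneg h) (mul_nonneg hL0 hsU.le)]
    have e5 : 16 * D * h * (L * r) ≤ U := by
      calc 16 * D * h * (L * r) = L * (16 * D * h) * r := by ring
        _ ≤ r * r := mul_le_mul_of_nonneg_right hLU hsU.le
        _ = U := hrr
    rw [le_div_iff₀ (by linarith)]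
    have h2 : 0 < h ^ 2 := by positivity
    refine le_of_mul_le_mul_right ?_ h2
    linarith [mul_nonneg hU0.le h2.le, mul_le_mul_of_nonneg_left e5 (show 0 ≤ h by linarith),
      mul_le_mul_of_nonneg_right hhD (mul_nonneg (show 0 ≤ h by linarith) hU0.le),
      mul_le_mul_of_nonneg_left (show 1 ≤ h by linarith)
        (mul_nonneg (show 0 ≤ h by linarith) hU0.le)]
  obtain ⟨occ, hocc⟩ : ∃ occ, occ = Finset.range J \ free := ⟨_, rfl⟩
  have hocc' : ∀ j ∈ occ, ∃ y ∈ Set.Ico (st j) (st j + 2 * h), hardyH y = 0 := fun j hj => by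
    rw [hocc, hfree, Finset.mem_sdiff, Finset.mem_filter] at hj
    have h0 : ¬ ∀ y ∈ Set.Ico (st j) (st j + 2 * h), hardyH y ≠ 0 := fun h' => hj.2 ⟨hj.1, h'⟩
    push Not at h0
    exact h0
  choose! z hz hz0 using hocc'
  have hsub : occ.card ≤ (lineZeros T).ncard := by
    rw [← Set.ncard_coe_finset]
    refine Set.ncard_le_ncard_of_injOn (fun j => 2 * z j) (fun j hj => ?_) (fun i hi j hj hij => ?_)
      (finite_lineZeros T)
    · have hjJ : ((j : ℝ) + 1) ≤ J := by
        rw [Finset.mem_coe, hocc, Finset.mem_sdiff, Finset.mem_range] at hj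
        exact_mod_cast hj.1
      obtain ⟨h1, h2⟩ := hz j hj
      rw [hst] at h1 h2
      simp only at h1 h2
      have hj0 : 0 ≤ 2 * (j : ℝ) * h := by positivity
      refine ⟨by linarith, ?_, (hardyH_eq_zero_iff (z j)).1 (hz0 j hj)⟩
      nlinarith [mul_le_mul_of_nonneg_right hjJ (show 0 ≤ h by linarith)]
    · obtain ⟨a1, a2⟩ := hz i hi
      obtain ⟨b1, b2⟩ := hz j hj
      rw [hst] at a1 a2 b1 b2
      simp only at a1 a2 b1 b2 hij
      rcases lt_trichotomy i j with hlt | heq | hlt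
      · exfalso
        have : (i : ℝ) + 1 ≤ j := by exact_mod_cast hlt
        nlinarith [mul_le_mul_of_nonneg_right this (show 0 ≤ h by linarith)]
      · exact heq
      · exfalso
        have : (j : ℝ) + 1 ≤ i := by exact_mod_cast hlt
        nlinarith [mul_le_mul_of_nonneg_right this (show 0 ≤ h by linarith)]
  have hcount : (J : ℝ) ≤ occ.card + free.card := by
    have := Finset.card_sdiff_add_card_eq_card (s := free) (t := Finset.range J)
      (hfree ▸ Finset.filter_subset _ _)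
    rw [← hocc, Finset.card_range] at this
    exact_mod_cast this.ge
  have hsub' : (occ.card : ℝ) ≤ (lineZeros T).ncard := Nat.cast_le.2 hsub
  refine le_trans ?_ hsub'
  rw [one_div_mul_eq_div, div_le_iff₀ (by linarith)]
  rw [le_div_iff₀ (by linarith)] at hcard
  nlinarith [mul_le_mul_of_nonneg_right hcount (show 0 ≤ h by linarith)]

end FA.HardyLittlewoodZeros
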