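import Fermat.Agent.HardyZeros.Decay
import Mathlib.Analysis.SpecialFunctions.Gamma.Beta
import Mathlib.NumberTheory.ZetaValues

/-!
# A lower bound for `Γ (1/4 + iy)`

`‖Γ (3/4 + iy) / Γ (1/4 + iy)‖` is `O (√(1 + |y|))` by Euler's product, so with the reflection
formula `‖Γ (1/4 + iy)‖²` is at least `e^(-π |y|) / √(1 + |y|)`.
-/

set_option autoImplicit false

noncomputable section

namespace FA.HardyLittlewoodZeros

open Complex Filter Topology Finset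
open scoped Real ComplexConjugate

/-- `(j + a)² + y²`. -/
def sqDist (a y : ℝ) (j : ℕ) : ℝ := ((j : ℝ) + a) ^ 2 + y ^ 2

theorem sqDist_pos {a : ℝ} (ha : 0 < a) (y : ℝ) (j : ℕ) : 0 < sqDist a y j := by
  unfold sqDist
  positivity

/-- One step of the product. -/
theorem sqDist_step (y : ℝ) (j : ℕ) :
    sqDist (1 / 4) y j ^ 2 * sqDist (1 / 4) y (j + 1) ≤
      sqDist (3 / 4) y j ^ 2 * sqDist (1 / 4) y j * Real.exp (2 / ((j : ℝ) + 1) ^ 2) := by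
  obtain ⟨A, hA⟩ : ∃ A, A = sqDist (1 / 4) y j := ⟨_, rfl⟩
  obtain ⟨B, hB⟩ : ∃ B, B = sqDist (3 / 4) y j := ⟨_, rfl⟩
  obtain ⟨A', hA'⟩ : ∃ A', A' = sqDist (1 / 4) y (j + 1) := ⟨_, rfl⟩
  have hA0 : 0 < A := hA ▸ sqDist_pos (by norm_num) y j
  have hB0 : 0 < B := hB ▸ sqDist_pos (by norm_num) y j
  have hj : (0 : ℝ) ≤ j := Nat.cast_nonneg j
  rw [← hA, ← hB, ← hA']
  have hBlow : ((j : ℝ) + 1) ^ 2 ≤ 2 * B := by rw [hB, sqDist]; nlinarith [sq_nonneg y]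
  have h1 : A * A' ≤ B ^ 2 * (1 + 1 / B) := by
    rw [mul_add, mul_one, mul_one_div, pow_two B, mul_div_assoc, div_self hB0.ne', mul_one]
    rw [hA, hA', hB]
    simp only [sqDist, Nat.cast_add, Nat.cast_one]
    nlinarith [sq_nonneg y, mul_nonneg hj hj]
  have h2 : 1 + 1 / B ≤ Real.exp (2 / ((j : ℝ) + 1) ^ 2) := by
    refine le_trans ?_ (Real.add_one_le_exp _)
    rw [add_comm]
    refine add_le_add ?_ le_rfl
    rw [div_le_div_iff₀ hB0 (by positivity)]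
    linarith
  calc A ^ 2 * A' = A * (A * A') := by ring
    _ ≤ A * (B ^ 2 * Real.exp (2 / ((j : ℝ) + 1) ^ 2)) :=
      mul_le_mul_of_nonneg_left (h1.trans (mul_le_mul_of_nonneg_left h2 (sq_nonneg B))) hA0.le
    _ = _ := by ring

/-- The product up to `n`. -/
theorem prod_sqDist_le (y : ℝ) (n : ℕ) :
    (∏ j ∈ range n, sqDist (1 / 4) y j) ^ 2 * sqDist (1 / 4) y n ≤
      (∏ j ∈ range n, sqDist (3 / 4) y j) ^ 2 * sqDist (1 / 4) y 0 *
        Real.exp (∑ j ∈ range n, 2 / ((j : ℝ) + 1) ^ 2) := by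
  induction n with
  | zero => simp
  | succ n ih =>
    rw [prod_range_succ, prod_range_succ, sum_range_succ, Real.exp_add]
    obtain ⟨P, hP⟩ : ∃ P, P = ∏ j ∈ range n, sqDist (1 / 4) y j := ⟨_, rfl⟩
    obtain ⟨Q, hQ⟩ : ∃ Q, Q = ∏ j ∈ range n, sqDist (3 / 4) y j := ⟨_, rfl⟩
    rw [← hP, ← hQ] at ih ⊢
    calc (P * sqDist (1 / 4) y n) ^ 2 * sqDist (1 / 4) y (n + 1)
        = P ^ 2 * (sqDist (1 / 4) y n ^ 2 * sqDist (1 / 4) y (n + 1)) := by ring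
      _ ≤ P ^ 2 * (sqDist (3 / 4) y n ^ 2 * sqDist (1 / 4) y n *
            Real.exp (2 / ((n : ℝ) + 1) ^ 2)) :=
          mul_le_mul_of_nonneg_left (sqDist_step y n) (sq_nonneg P)
      _ = (P ^ 2 * sqDist (1 / 4) y n) *
            (sqDist (3 / 4) y n ^ 2 * Real.exp (2 / ((n : ℝ) + 1) ^ 2)) := by ring
      _ ≤ (Q ^ 2 * sqDist (1 / 4) y 0 * Real.exp (∑ j ∈ range n, 2 / ((j : ℝ) + 1) ^ 2)) *
            (sqDist (3 / 4) y n ^ 2 * Real.exp (2 / ((n : ℝ) + 1) ^ 2)) :=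
          mul_le_mul_of_nonneg_right ih (by positivity)
      _ = _ := by ring

theorem sum_two_div_sq_le (n : ℕ) : ∑ j ∈ range n, 2 / ((j : ℝ) + 1) ^ 2 ≤ 4 := by
  have h := sum_le_hasSum ((range n).image Nat.succ) (fun m _ => by positivity) hasSum_zeta_two
  rw [sum_image fun a _ b _ h => Nat.succ_injective h] at h
  calc ∑ j ∈ range n, 2 / ((j : ℝ) + 1) ^ 2
      = 2 * ∑ j ∈ range n, 1 / ((Nat.succ j : ℕ) : ℝ) ^ 2 := by
        rw [mul_sum]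
        exact sum_congr rfl fun j _ => by push_cast; ring
    _ ≤ 2 * (π ^ 2 / 6) := mul_le_mul_of_nonneg_left h zero_le_two
    _ ≤ 4 := by nlinarith [Real.pi_lt_d2, Real.pi_pos]

theorem normSq_add_natCast (a y : ℝ) (j : ℕ) : ‖((a : ℂ) + y * I) + j‖ ^ 2 = sqDist a y j := by
  rw [Complex.sq_norm, Complex.normSq_apply, sqDist]
  simp
  ring

/-- Euler's approximations. -/
theorem norm_GammaSeq_le (y : ℝ) {n : ℕ} (hn : 0 < n) :
    ‖Complex.GammaSeq (((3 / 4 : ℝ) : ℂ) + y * I) n‖ ^ 4 ≤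
      Real.exp 4 * sqDist (1 / 4) y 0 *
        ‖Complex.GammaSeq (((1 / 4 : ℝ) : ℂ) + y * I) n‖ ^ 4 := by
  have e : ∀ a : ℝ, ‖Complex.GammaSeq ((a : ℂ) + y * I) n‖ ^ 4 =
      ((n : ℝ) ^ a) ^ 4 * (n.factorial : ℝ) ^ 4 / (∏ j ∈ range (n + 1), sqDist a y j) ^ 2 := by
    intro a
    rw [Complex.GammaSeq, norm_div, norm_mul, Complex.norm_natCast_cpow_of_pos hn, norm_prod,
      Complex.norm_natCast, div_pow, mul_pow, ← prod_congr rfl fun j _ => normSq_add_natCast a y j,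
      Finset.prod_pow, ← pow_mul]
    simp
  rw [e, e]
  have hn0 : (0 : ℝ) < n := Nat.cast_pos.2 hn
  have hP := prod_sqDist_le y (n + 1)
  have hE := Real.exp_le_exp.2 (sum_two_div_sq_le (n + 1))
  obtain ⟨P, hPd⟩ : ∃ P, P = ∏ j ∈ range (n + 1), sqDist (1 / 4) y j := ⟨_, rfl⟩
  obtain ⟨Q, hQd⟩ : ∃ Q, Q = ∏ j ∈ range (n + 1), sqDist (3 / 4) y j := ⟨_, rfl⟩
  rw [← hPd, ← hQd] at hP ⊢
  have hP0 : 0 < P := hPd ▸ prod_pos fun j _ => sqDist_pos (by norm_num) y j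
  have hQ0 : 0 < Q := hQd ▸ prod_pos fun j _ => sqDist_pos (by norm_num) y j
  have hA0 : 0 < sqDist (1 / 4) y 0 := sqDist_pos (by norm_num) y 0
  have hq : ((n : ℝ) ^ (3 / 4 : ℝ)) ^ 4 = ((n : ℝ) ^ (1 / 4 : ℝ)) ^ 4 * (n : ℝ) ^ 2 := by
    rw [← Real.rpow_natCast, ← Real.rpow_natCast, ← Real.rpow_natCast, ← Real.rpow_mul hn0.le,
      ← Real.rpow_mul hn0.le, ← Real.rpow_add hn0]
    norm_num
  have hlast : (n : ℝ) ^ 2 ≤ sqDist (1 / 4) y (n + 1) := by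
    rw [sqDist]
    push_cast
    nlinarith [sq_nonneg y]
  have key : (n : ℝ) ^ 2 * P ^ 2 ≤ Real.exp 4 * sqDist (1 / 4) y 0 * Q ^ 2 := by
    calc (n : ℝ) ^ 2 * P ^ 2 ≤ sqDist (1 / 4) y (n + 1) * P ^ 2 :=
          mul_le_mul_of_nonneg_right hlast (sq_nonneg P)
      _ = P ^ 2 * sqDist (1 / 4) y (n + 1) := mul_comm _ _
      _ ≤ Q ^ 2 * sqDist (1 / 4) y 0 * Real.exp 4 :=
          hP.trans (mul_le_mul_of_nonneg_left hE (by positivity))
      _ = _ := by ring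
  rw [hq, mul_div_assoc', div_le_div_iff₀ (pow_pos hQ0 2) (pow_pos hP0 2)]
  calc ((n : ℝ) ^ (1 / 4 : ℝ)) ^ 4 * (n : ℝ) ^ 2 * (n.factorial : ℝ) ^ 4 * P ^ 2
      = ((n : ℝ) ^ (1 / 4 : ℝ)) ^ 4 * (n.factorial : ℝ) ^ 4 * ((n : ℝ) ^ 2 * P ^ 2) := by ring
    _ ≤ ((n : ℝ) ^ (1 / 4 : ℝ)) ^ 4 * (n.factorial : ℝ) ^ 4 *
          (Real.exp 4 * sqDist (1 / 4) y 0 * Q ^ 2) :=
        mul_le_mul_of_nonneg_left key (by positivity)
    _ = _ := by ring

/-- **The ratio of `Γ (3/4 + iy)` and `Γ (1/4 + iy)`.** -/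
theorem norm_Gamma_three_quarter_le (y : ℝ) :
    ‖Complex.Gamma (((3 / 4 : ℝ) : ℂ) + y * I)‖ ≤
      Real.exp 1 * √(1 + |y|) * ‖Complex.Gamma (((1 / 4 : ℝ) : ℂ) + y * I)‖ := by
  have h : ‖Complex.Gamma (((3 / 4 : ℝ) : ℂ) + y * I)‖ ^ 4 ≤
      Real.exp 4 * sqDist (1 / 4) y 0 * ‖Complex.Gamma (((1 / 4 : ℝ) : ℂ) + y * I)‖ ^ 4 := by
    refine le_of_tendsto_of_tendsto ((Complex.GammaSeq_tendsto_Gamma _).norm.pow 4)
      (((Complex.GammaSeq_tendsto_Gamma _).norm.pow 4).const_mul _) ?_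
    filter_upwards [eventually_gt_atTop 0] with n hn
    exact norm_GammaSeq_le y hn
  refine le_of_pow_le_pow_left₀ (n := 4) (by norm_num) (by positivity) (h.trans ?_)
  rw [mul_pow, mul_pow, ← Real.exp_nat_mul]
  refine mul_le_mul_of_nonneg_right (mul_le_mul (le_of_eq (by norm_num)) ?_
    (sqDist_pos (by norm_num) y 0).le (Real.exp_pos _).le) (by positivity)
  rw [show (√(1 + |y|)) ^ 4 = ((√(1 + |y|)) ^ 2) ^ 2 by ring,
    Real.sq_sqrt (by positivity), sqDist, ← sq_abs y]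
  push_cast
  nlinarith [abs_nonneg y]

/-- **The lower bound for `Γ (1/4 + iy)`.** -/
theorem one_le_norm_sq_Gamma_quarter (y : ℝ) :
    1 ≤ ‖Complex.Gamma (((1 / 4 : ℝ) : ℂ) + y * I)‖ ^ 2 * √(1 + |y|) * Real.exp (π * |y|) := by
  obtain ⟨z, hz⟩ : ∃ z : ℂ, z = ((1 / 4 : ℝ) : ℂ) + y * I := ⟨_, rfl⟩
  have h := congrArg norm (Complex.Gamma_mul_Gamma_one_sub z)
  have e : 1 - z = conj (((3 / 4 : ℝ) : ℂ) + y * I) := by
    rw [map_add, map_mul, Complex.conj_ofReal, Complex.conj_ofReal, Complex.conj_I, hz]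
    push_cast
    ring
  rw [e, Complex.Gamma_conj, norm_mul, Complex.norm_conj, norm_div, Complex.norm_real,
    Real.norm_of_nonneg Real.pi_pos.le] at h
  have hsin : ‖Complex.sin ((π : ℂ) * z)‖ ≤ Real.exp (π * |y|) := by
    have him : ((π : ℂ) * z).im = π * y := by rw [hz]; simp
    rw [Complex.sin, norm_div, norm_mul, Complex.norm_I, mul_one, Complex.norm_two,
      div_le_iff₀ two_pos]
    refine (norm_sub_le _ _).trans ?_
    rw [Complex.norm_exp, Complex.norm_exp]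
    have h1 := Real.exp_le_exp.2 (mul_le_mul_of_nonneg_left (le_abs_self y) Real.pi_pos.le)
    have h2 := Real.exp_le_exp.2 (mul_le_mul_of_nonneg_left (neg_le_abs y) Real.pi_pos.le)
    have e1 : (-((π : ℂ) * z) * I).re = π * y := by simp [him]
    have e2 : ((π : ℂ) * z * I).re = π * -y := by simp [him]
    rw [e1, e2]
    linarith
  have hne : Complex.sin ((π : ℂ) * z) ≠ 0 := by
    intro h0
    rw [h0, norm_zero, div_zero, mul_eq_zero, norm_eq_zero, norm_eq_zero] at h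
    rcases h with h | h
    · exact Complex.Gamma_ne_zero_of_re_pos (by rw [hz]; simp) h
    · exact Complex.Gamma_ne_zero_of_re_pos (by simp) h
  have h1 : π / Real.exp (π * |y|) ≤ ‖Complex.Gamma z‖ ^ 2 * (Real.exp 1 * √(1 + |y|)) := by
    refine ((div_le_div_of_nonneg_left Real.pi_pos.le (norm_pos_iff.2 hne) hsin).trans
      (le_of_eq h.symm)).trans ?_
    rw [pow_two, mul_assoc, mul_comm ‖Complex.Gamma z‖ (Real.exp 1 * _)]
    exact mul_le_mul_of_nonneg_left (hz ▸ norm_Gamma_three_quarter_le y) (norm_nonneg _)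
  rw [div_le_iff₀ (Real.exp_pos _)] at h1
  rw [← hz]
  have hpi : Real.exp 1 ≤ π := Real.exp_one_lt_three.le.trans Real.pi_gt_three.le
  refine le_of_mul_le_mul_left ?_ (Real.exp_pos 1)
  linarith

end FA.HardyLittlewoodZeros
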